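import Fermat.Agent.RTLift.Setup.Global.Image
import Fermat.Agent.RTLift.Finish.Image.Main

/-!
# A prime congruent to two mod three with trace prime to three
-/

set_option autoImplicit false

namespace FermatAgent.MazurPrinciple.AwayThree

open FermatAgent.RTLift

/-- An auxiliary prime `l ≡ 2 mod 3` outside a finite set with `a_l` prime to three. -/
theorem exists_good_prime {W : WeierstrassCurve ℤ} (hS : Finish.Setting W 3) (S : Finset ℕ) :
    ∃ l : ℕ, l.Prime ∧ l ∉ S ∧ l % 3 = 2 ∧ ¬ (3 : ℤ) ∣ W.apOfModel l := by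
  have : Fact (Nat.Prime 3) := ⟨Nat.prime_three⟩
  have hΔ : (W.map (Int.castRingHom ℚ)).Δ ≠ 0 := by
    rw [WeierstrassCurve.map_Δ]
    simpa using hS.disc_ne_zero
  obtain ⟨l, hl, hlS, -, -, hlm, hal⟩ := Setup.exists_auxPrime hΔ
    (Finish.Image.imageStep W 3 hS) hS.irreducible (by decide) S
  refine ⟨l, hl, hlS, ?_, fun h => hal ((ZMod.intCast_zmod_eq_zero_iff_dvd _ 3).mpr h)⟩
  have h : (l : ZMod 3) = ((2 : ℕ) : ZMod 3) := by rw [hlm]; rfl
  simpa [Nat.ModEq] using (ZMod.natCast_eq_natCast_iff l 2 3).mp h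

end FermatAgent.MazurPrinciple.AwayThree
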