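import Fermat.Agent.MazurPrinciple.AwayThree.TwoBound
import Fermat.Agent.MazurPrinciple.HeckePaired
import Fermat.Agent.BadRed.Carayol.Instance.Tower

/-!
# Orders divisible by three descend from the auxiliary level

Where every ramification index of the auxiliary level is divisible by three the place is the
reduction of an elliptic point of order three, or the order there is divisible by three.
-/

set_option autoImplicit false
set_option linter.unusedSectionVars false
set_option linter.style.haveILetI false

noncomputable section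

open AlgebraicCurve IntermediateField IsLocalRing
open FermatAgent.Curve FermatAgent.JacCharts FermatAgent.ModFun FermatAgent.BadRed.Semistable
open FermatAgent.BadRed.Carayol.Instance
open ModularCurve (modularFunctionFieldFullC modularFunctionFieldBar)

namespace FermatAgent.MazurPrinciple.AwayThree

local notation "Qb" => AlgebraicClosure ℚ

variable (A : ValuationSubring Qb)

omit A in
theorem fullC_mono (k : Type*) [Field k] {M N : ℕ} (h : M ∣ N) :
    modularFunctionFieldFullC k M ≤ modularFunctionFieldFullC k N :=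
  IntermediateField.adjoin.mono k _ _ fun _ ⟨d, hne, hd, e⟩ => ⟨d, hne, hd.trans h, e⟩

/-- The fibre of `X₀(N) → X₀(M)` on function fields. -/
def fibIncl {M N : ℕ} (h : M ∣ N) :
    modularFunctionFieldFullC (ResidueField A) M →ₐ[ResidueField A]
      modularFunctionFieldFullC (ResidueField A) N :=
  IntermediateField.inclusion (fullC_mono _ h)

theorem fibIncl_jFib {M N : ℕ} [NeZero M] [NeZero N] (h : M ∣ N) :
    fibIncl A h (jFib (ResidueField A) M) = jFib (ResidueField A) N :=
  Subtype.ext rfl

variable {A} {q : ℕ} [Fact q.Prime] (hA : A.LiesOverPrime q)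

section Upstairs

variable {M N : ℕ} [NeZero M] [NeZero N] (hqM : ¬ q ∣ M) (hqN : ¬ q ∣ N) (hMN : M ∣ N)
  (haux : (5 ≤ q ∧ (4 ∣ N ∨ 9 ∣ N)) ∨ (q = 2 ∧ 9 ∣ N))
variable [IsAlgClosed (ResidueField A)] [IsFunctionField1 Qb (modularFunctionFieldBar M)]
  [IsFunctionField1 Qb (modularFunctionFieldBar N)]
  [IsFunctionField1 (ResidueField A) (modularFunctionFieldFullC (ResidueField A) M)]
  [IsFunctionField1 (ResidueField A) (modularFunctionFieldFullC (ResidueField A) N)]

include hA hqN haux in
/-- The bound on the orders of `j - c` at the auxiliary level. -/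
theorem ord_jFib_aux (R : Place (ResidueField A) (modularFunctionFieldFullC (ResidueField A) N))
    (c : ResidueField A) :
    (c = 0 → 0 < R.ord (jFib (ResidueField A) N) → ¬ (9 : ℤ) ∣ R.ord (jFib (ResidueField A) N)) ∧
    (c ≠ 0 → R.ord (jFib (ResidueField A) N - algebraMap (ResidueField A) _ c) ≤ 2) := by
  rcases haux with ⟨h5, hN⟩ | ⟨rfl, h9⟩
  · refine ⟨fun _ h => ?_, fun hc => ord_jFib_sub_le_two Fact.out h5 hA hqN hN hc R⟩
    rw [ord_jFib_eq_three Fact.out h5 hA hqN hN h]
    norm_num
  · exact ⟨fun _ h => not_nine_dvd_ord_jFib hA h9 hqN h,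
      fun hc => (ord_jFib_sub_le_one hA h9 hqN hc R).trans one_le_two⟩

include hA hqM hMN in
/-- A place over which the pullback has orders divisible by three is the reduction of an elliptic
point of order three or has order divisible by three, given the bound at the upper level. -/
theorem dvd_ord_or_elliptic
    (hbound : ∀ (R : Place (ResidueField A) (modularFunctionFieldFullC (ResidueField A) N))
      (c : ResidueField A),
      (c = 0 → 0 < R.ord (jFib (ResidueField A) N) → ¬ (9 : ℤ) ∣ R.ord (jFib (ResidueField A) N)) ∧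
      (c ≠ 0 → R.ord (jFib (ResidueField A) N - algebraMap (ResidueField A) _ c) ≤ 2))
    {φ : modularFunctionFieldFullC (ResidueField A) M}
    (hup : ∀ R : Place (ResidueField A) (modularFunctionFieldFullC (ResidueField A) N),
      (3 : ℤ) ∣ R.ord (fibIncl A hMN φ))
    {Q : Place (ResidueField A) (modularFunctionFieldFullC (ResidueField A) M)}
    (hQ : 0 ≤ Q.ord (jFib (ResidueField A) M)) :
    (3 : ℤ) ∣ Q.ord φ ∨ ∃ P, (Igusa.Down.datum M Fact.out hqM hA).place P = Q ∧
      0 < P.ord (jBar Qb M) ∧ ¬ (3 : ℤ) ∣ P.ord (jBar Qb M) := by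
  have hq : q.Prime := Fact.out
  set f := fibIncl A hMN with hf
  have hint := isIntegralAlong f
  obtain ⟨R, rfl⟩ := exists_restrictAlong_eq f hint Q
  set Q := R.restrictAlong f hint
  set e := R.ramificationIndexAlong f
  by_cases h3 : (3 : ℤ) ∣ (e : ℤ)
  swap
  · left
    have h := hup R
    rw [R.ord_restrictAlong f hint] at h
    exact ((Int.prime_three.dvd_mul).mp h).resolve_left h3
  rcases em ((3 : ℤ) ∣ Q.ord φ) with hd | hd
  · exact Or.inl hd
  right
  set jM := jFib (ResidueField A) M
  have hmem : jM ∈ Q.toValuationSubring := (Curve.mem_iff_ord_nonneg Q).mpr (Or.inr hQ)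
  set c := valueAt Q jM
  have hne : jM - algebraMap (ResidueField A) _ c ≠ 0 := fun h =>
    Curve.transcendental_sub_const transcendental_jFib c (h ▸ isAlgebraic_zero)
  have hpos : 0 < Q.ord (jM - algebraMap (ResidueField A) _ c) :=
    (valueAt_spec Q hmem).resolve_left fun h => hne (sub_eq_zero.mpr h)
  have he : R.ord (jFib (ResidueField A) N - algebraMap (ResidueField A) _ c) =
      e * Q.ord (jM - algebraMap (ResidueField A) _ c) := by
    rw [← R.ord_restrictAlong f hint, map_sub, AlgHom.commutes, fibIncl_jFib]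
  have he0 : 0 < (e : ℤ) := by exact_mod_cast ramificationIndexAlong_pos f R
  by_cases hc : c = 0
  swap
  · exfalso
    have h2 := (hbound R c).2 hc
    obtain ⟨e', he'⟩ := h3
    have h3e : (3 : ℤ) ≤ e := by omega
    have hmul := mul_le_mul h3e (Int.add_one_le_iff.mpr hpos) (by norm_num) (by omega)
    rw [← he] at hmul
    omega
  rw [hc, map_zero, sub_zero] at hpos
  rw [hc, map_zero, map_zero, sub_zero, sub_zero] at he
  have hQ3 : ¬ (3 : ℤ) ∣ Q.ord jM := fun h => (hbound R 0).1 rfl
    (by rw [he]; positivity) (by rw [he]; exact mul_dvd_mul h3 h)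
  by_contra hno
  refine hQ3 (dvd_ord_red (redsTo_jBar hq hqM hA) (fun h => by
    rw [show jM = jFib (ResidueField A) M from rfl, h, Place.ord_zero] at hpos; omega)
    fun P hP => ?_)
  rcases lt_trichotomy (P.ord (jBar Qb M)) 0 with h | h | h
  · have := ord_place_neg (redsTo_jBar hq hqM hA) (transcendental_jBar Qb M) transcendental_jFib
      (finrank_adjoin_jFib hq hqM hA) h
    rw [hP] at this
    change Q.ord jM < 0 at this
    omega
  · exact h ▸ dvd_zero _
  · by_contra h'
    exact hno ⟨P, hP, h, h'⟩

end Upstairs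

section Operator

variable {M l : ℕ} [NeZero M] [NeZero l]

theorem dvd_map_of_dvd {ι κ : Type*} (T : (ι →₀ ℤ) →+ (κ →₀ ℤ)) {E : ι →₀ ℤ} {n : ℤ}
    (h : ∀ i, n ∣ E i) (x : κ) : n ∣ T E x := by
  have e : E = n • Finsupp.mapRange (fun m : ℤ => m / n) (Int.zero_ediv _) E :=
    Finsupp.ext fun i => by
      rw [Finsupp.smul_apply, Finsupp.mapRange_apply, smul_eq_mul, Int.mul_ediv_cancel' (h i)]
  rw [e, map_zsmul, Finsupp.smul_apply, smul_eq_mul]
  exact dvd_mul_right _ _

end Operator

end FermatAgent.MazurPrinciple.AwayThree
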