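import Fermat.Agent.BadRed.Carayol.Instance.EtaleFibre

/-!
# Values of a rational function of degree twelve in characteristic two

For `P` of degree `28` whose roots outside the roots of `R = X³ + X² + X` are all `1`, with even
multiplicity, `P / R⁹` takes no nonzero value multiply outside the roots of `R`.
-/

set_option autoImplicit false
set_option linter.unusedSectionVars false

noncomputable section

open Polynomial AlgebraicCurve IntermediateField
open FermatAgent.Curve FermatAgent.JacCharts FermatAgent.BadRed.Carayol.Instance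

namespace FermatAgent.MazurPrinciple.AwayThree

section Algebra

variable {k : Type*} [Field k] [CharP k 2]

theorem two_eq_zero_two : (2 : k) = 0 := CharTwo.two_eq_zero

theorem eval_rTwo (a : k) :
    (X ^ 3 + X ^ 2 + X : k[X]).eval a = a * (a ^ 2 + a + 1) := by
  simp; ring

/-- The derivative of `P R` vanishes at a multiple value of `P / R⁹`. -/
theorem eval_derivative_mul_eq_zero {P : k[X]} {c a : k}
    (h1 : (P + C c * (X ^ 3 + X ^ 2 + X) ^ 9).eval a = 0)
    (h2 : (derivative (P + C c * (X ^ 3 + X ^ 2 + X) ^ 9)).eval a = 0) :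
    (derivative (P * (X ^ 3 + X ^ 2 + X))).eval a = 0 := by
  have h20 : (2 : k) = 0 := two_eq_zero_two
  simp [derivative_pow] at h1 h2 ⊢
  linear_combination (3 * a ^ 2 + 2 * a + 1) * h1 + (a ^ 3 + a ^ 2 + a) * h2
    - (5 * c * (3 * a ^ 2 + 2 * a + 1) * (a ^ 3 + a ^ 2 + a) ^ 9) * h20

theorem natCast_two_cases (n : ℕ) : (n : k) = if Even n then 0 else 1 := by
  have h20 : (2 : k) = 0 := two_eq_zero_two
  rcases Nat.even_or_odd' n with ⟨m, rfl | rfl⟩ <;> simp [h20, parity_simps]

variable [IsAlgClosed k]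

/-- The derivative of `P R` has no zero other than `1` and the roots of `R`. -/
theorem eval_derivative_mul_ne_zero {P : k[X]} (hdeg : P.natDegree = 28)
    (hroots : ∀ r, P.eval r = 0 → (X ^ 3 + X ^ 2 + X : k[X]).eval r ≠ 0 → r = 1)
    (heven : 2 ∣ P.rootMultiplicity 1) {a : k} (ha : (X ^ 3 + X ^ 2 + X : k[X]).eval a ≠ 0)
    (hPa : P.eval a ≠ 0) (ha1 : a ≠ 1) :
    (derivative (P * (X ^ 3 + X ^ 2 + X))).eval a ≠ 0 := by
  classical
  have h20 : (2 : k) = 0 := two_eq_zero_two
  obtain ⟨w, hw⟩ := IsAlgClosed.exists_root (X ^ 2 + X + 1 : k[X]) (by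
    rw [show (X ^ 2 + X + 1 : k[X]).degree = 2 by compute_degree!]; norm_num)
  simp only [IsRoot.def, eval_add, eval_pow, eval_X, eval_one] at hw
  have hw' : (w + 1) ^ 2 + (w + 1) + 1 = 0 := by linear_combination hw + (w + 1) * h20
  have hw0 : w ≠ 0 := fun h => one_ne_zero (α := k) (by linear_combination hw - (w + 1) * h)
  have hw1 : w ≠ 1 := fun h => one_ne_zero (α := k)
    (by linear_combination hw - (w + 2) * h - h20)
  set T := P * (X ^ 3 + X ^ 2 + X) with hT
  have hR0 : (X ^ 3 + X ^ 2 + X : k[X]) ≠ 0 := fun h => ha (by rw [h, eval_zero])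
  have hP0 : P ≠ 0 := fun h => hPa (by rw [h, eval_zero])
  have hTa : T.eval a ≠ 0 := by rw [hT, eval_mul]; exact mul_ne_zero hPa ha
  rw [(IsAlgClosed.splits T).eval_derivative_eq_eval_mul_sum hTa]
  refine mul_ne_zero hTa ?_
  have hsub : T.roots.toFinset ⊆ {0, 1, w, w + 1} := by
    intro r hr
    rw [Multiset.mem_toFinset, mem_roots (mul_ne_zero hP0 hR0), IsRoot.def, eval_mul] at hr
    simp only [Finset.mem_insert, Finset.mem_singleton]
    by_cases hRr : (X ^ 3 + X ^ 2 + X : k[X]).eval r = 0
    · rw [eval_rTwo, mul_eq_zero] at hRr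
      rcases hRr with h | h
      · exact Or.inl h
      · have : (r + w) * (r + w + 1) = 0 := by linear_combination h + hw + (r * w - 1) * h20
        rcases mul_eq_zero.mp this with h | h
        · exact Or.inr (Or.inr (Or.inl (by linear_combination h - w * h20)))
        · exact Or.inr (Or.inr (Or.inr (by linear_combination h - (w + 1) * h20)))
    · exact Or.inr (Or.inl (hroots r ((mul_eq_zero.mp hr).resolve_right hRr) hRr))
  have hsum : ∀ f : k → k, (T.roots.map f).sum =
      ∑ r ∈ ({0, 1, w, w + 1} : Finset k), (T.roots.count r : k) * f r := fun f => by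
    rw [Finset.sum_multiset_map_count]
    refine (Finset.sum_subset hsub fun r _ hr => ?_).trans
      (Finset.sum_congr rfl fun r _ => nsmul_eq_mul _ _)
    rw [Multiset.count_eq_zero.mpr (by simpa using hr), zero_nsmul]
  have hd1 : (0 : k) ∉ ({1, w, w + 1} : Finset k) := by
    simp only [Finset.mem_insert, Finset.mem_singleton, not_or]
    exact ⟨zero_ne_one, hw0.symm, fun h => hw1 (by linear_combination -h + -h20)⟩
  have hd2 : (1 : k) ∉ ({w, w + 1} : Finset k) := by
    simp only [Finset.mem_insert, Finset.mem_singleton, not_or]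
    exact ⟨hw1.symm, fun h => hw0 (by linear_combination -h)⟩
  have hd3 : w ∉ ({w + 1} : Finset k) := by simp
  rw [hsum]
  simp only [Finset.sum_insert hd1, Finset.sum_insert hd2, Finset.sum_insert hd3,
    Finset.sum_singleton]
  have he1 : Even (T.roots.count 1) := by
    rw [count_roots, hT, rootMultiplicity_mul (mul_ne_zero hP0 hR0),
      rootMultiplicity_eq_zero (p := (X ^ 3 + X ^ 2 + X : k[X])) (by
        rw [IsRoot.def, eval_rTwo]
        exact fun h => one_ne_zero (α := k) (by linear_combination h - h20)), add_zero]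
    exact even_iff_two_dvd.mpr heven
  have htot : T.roots.count 0 + T.roots.count 1 + T.roots.count w + T.roots.count (w + 1) = 31 := by
    have h1 := Multiset.sum_count_eq_card (s := {0, 1, w, w + 1}) (m := T.roots)
      fun r hr => hsub (Multiset.mem_toFinset.mpr hr)
    rw [IsAlgClosed.card_roots_eq_natDegree, hT, natDegree_mul hP0 hR0, hdeg,
      show (X ^ 3 + X ^ 2 + X : k[X]).natDegree = 3 by compute_degree!,
      Finset.sum_insert hd1, Finset.sum_insert hd2, Finset.sum_insert hd3,
      Finset.sum_singleton, ← hT] at h1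
    omega
  rw [natCast_two_cases (T.roots.count 1), if_pos he1, zero_mul, zero_add]
  rw [eval_rTwo, mul_ne_zero_iff] at ha
  have hq : (a - w) * (a - (w + 1)) = a ^ 2 + a + 1 := by
    linear_combination hw - (a * w + a + 1) * h20
  obtain ⟨haw, haw'⟩ := mul_ne_zero_iff.mp (hq ▸ ha.2)
  rw [sub_zero, natCast_two_cases (T.roots.count 0), natCast_two_cases (T.roots.count w),
    natCast_two_cases (T.roots.count (w + 1))]
  rw [Nat.even_iff] at he1
  rcases Nat.mod_two_eq_zero_or_one (T.roots.count 0) with e0 | e0 <;>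
    rcases Nat.mod_two_eq_zero_or_one (T.roots.count w) with ew | ew <;>
    rcases Nat.mod_two_eq_zero_or_one (T.roots.count (w + 1)) with ew' | ew' <;>
    (try (exfalso; omega)) <;>
    simp only [Nat.even_iff, e0, ew, ew', one_ne_zero, if_true, if_false, zero_mul, one_mul,
      zero_add, add_zero, one_div]
  all_goals
    first
      | exact inv_ne_zero ha.1
      | exact inv_ne_zero haw
      | exact inv_ne_zero haw'
      | skip
  intro h
  have h3 : a * (a - w) * (a - (w + 1)) * (a⁻¹ + ((a - w)⁻¹ + (a - (w + 1))⁻¹)) =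
      (a - w) * (a - (w + 1)) + (a * (a - (w + 1)) + a * (a - w)) := by
    field_simp [ha.1]
  rw [h, mul_zero, hq] at h3
  have : (a + 1) ^ 2 = 0 := by linear_combination -h3 + (a * w + a - a ^ 2) * h20
  exact ha1 (by linear_combination (pow_eq_zero_iff two_ne_zero).mp this - h20)

/-- Nonzero values are taken simply. -/
theorem rootMultiplicity_le_one {P : k[X]} (hdeg : P.natDegree = 28)
    (hroots : ∀ r, P.eval r = 0 → (X ^ 3 + X ^ 2 + X : k[X]).eval r ≠ 0 → r = 1)
    (heven : 2 ∣ P.rootMultiplicity 1) (hone : P.eval 1 = 0) {c : k} (hc : c ≠ 0) {a : k}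
    (ha : (X ^ 3 + X ^ 2 + X : k[X]).eval a ≠ 0) :
    (P + C c * (X ^ 3 + X ^ 2 + X) ^ 9).rootMultiplicity a ≤ 1 := by
  by_contra! hm
  set G := P + C c * (X ^ 3 + X ^ 2 + X) ^ 9
  have hG : G ≠ 0 := fun h => by rw [h, rootMultiplicity_zero] at hm; omega
  have h1 : G.eval a = 0 := (rootMultiplicity_pos hG).mp (by omega)
  have h2 : (derivative G).eval a = 0 :=
    ((one_lt_rootMultiplicity_iff_isRoot hG).mp hm).2
  have hPa : P.eval a ≠ 0 := fun h0 => by
    rw [show G = P + C c * (X ^ 3 + X ^ 2 + X) ^ 9 from rfl, eval_add, h0, zero_add, eval_mul,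
      eval_C, eval_pow] at h1
    exact mul_ne_zero hc (pow_ne_zero _ ha) h1
  exact eval_derivative_mul_ne_zero hdeg hroots heven ha hPa (fun h => hPa (h ▸ hone))
    (eval_derivative_mul_eq_zero h1 h2)

end Algebra

end FermatAgent.MazurPrinciple.AwayThree
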