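import Fermat.Agent.MazurPrinciple.AwayThree.Elliptic
import Fermat.Agent.BadRed.Carayol.Instance.JLine

/-!
# The coordinate at level nine takes its cusp values only at cusps
-/

set_option autoImplicit false
set_option linter.unusedSectionVars false
set_option linter.style.haveILetI false

noncomputable section

open UpperHalfPlane hiding I
open Polynomial AlgebraicCurve Filter Topology
open scoped MatrixGroups
open FermatAgent.ModFun FermatAgent.ModCurve.Points FermatAgent.Curve
open FermatAgent.BadRed.Carayol.Instance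
open ModularCurve (coeffMap modularFunctionFieldFull laurentBaseChange modularFunctionFieldBar)

namespace FermatAgent.MazurPrinciple.AwayThree

variable {q : ℕ} [Fact q.Prime] [NeZero q] (H : Hauptmodul q) {N : ℕ} [NeZero N] (hN : H.L ∣ N)

/-- At a point, a zero of `u - a` is a zero of the function. -/
theorem u_eq_of_ord_pos {a : ℂ} {z : ℍ}
    (hP : 0 < (pointPlace N z).ord (uElt ℂ H hN - algebraMap ℂ (FieldC N) a)) : H.u z = a := by
  set x : FieldC N := uElt ℂ H hN
  obtain ⟨a', b', hb, hx⟩ := ModCurve.Points.exists_div N x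
  set uc : cuspRing := ⟨H.u, levelRing_le_cuspRing _ H.mem⟩
  have hfun : (a' : cuspRing) = (b' : cuspRing) * uc := by
    refine qLaurentHom_injective ?_
    have h1 := (eq_div_iff ((map_ne_zero_iff _ (toField_injective N)).mpr hb)).mp hx
    have h2 := congrArg (fun y : FieldC N => (y : LaurentSeries ℂ)) h1
    simp only [MulMemClass.coe_mul, coe_toField] at h2
    rw [map_mul, show qLaurentHom uc = (x : LaurentSeries ℂ) by
      rw [qLaurentHom_apply, coe_uElt]; exact qLaurent_u_eq H, ← h2, mul_comm]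
  set f : ℂ → ℂ := H.u ∘ ofComplex with hf
  have hfd : DifferentiableOn ℂ f upperHalfPlaneSet :=
    UpperHalfPlane.mdifferentiable_iff.mp (levelRing_le_cuspRing _ H.mem).1
  have hga : AnalyticAt ℂ (fun w => f w - a) z :=
    (hfd.analyticAt (isOpen_upperHalfPlaneSet.mem_nhds z.im_pos)).sub analyticAt_const
  set g := MeroGerm.mk (fun w => f w - a) hga.meromorphicAt
  have hmul : pointHom N z 1 (toField N b') * g =
      pointHom N z 1 (toField N (a' - algebraMap ℂ _ a * b')) := by
    rw [pointHom_toField, pointHom_toField, germHom_apply, germHom_apply, MeroGerm.mk_mul,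
      MeroGerm.mk_eq_mk]
    refine Eventually.of_forall fun w => ?_
    have hv := congrFun (congrArg Subtype.val hfun) ((1 : SL(2, ℤ)) • ofComplex w)
    show evalH b' ((1 : SL(2, ℤ)) • ofComplex w) * (H.u (ofComplex w) - a) =
      evalH a' ((1 : SL(2, ℤ)) • ofComplex w) - a * evalH b' ((1 : SL(2, ℤ)) • ofComplex w)
    rw [show evalH a' ((1 : SL(2, ℤ)) • ofComplex w) = evalH b' ((1 : SL(2, ℤ)) • ofComplex w) *
      H.u ((1 : SL(2, ℤ)) • ofComplex w) from hv, one_smul]
    ring
  have hb0 : pointHom N z 1 (toField N b') ≠ 0 :=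
    (_root_.map_ne_zero _).mpr ((map_ne_zero_iff _ (toField_injective N)).mpr hb)
  have hxa : toField N (a' - algebraMap ℂ _ a * b') = (x - algebraMap ℂ _ a) * toField N b' := by
    erw [map_sub (toField N)]
    rw [map_mul, AlgHom.commutes, sub_mul, hx,
      div_mul_cancel₀ _ ((map_ne_zero_iff _ (toField_injective N)).mpr hb)]
  rw [hxa, map_mul, mul_comm _ g] at hmul
  have hgx := mul_right_cancel₀ hb0 hmul
  have hord := ordAt_eq N z (x - algebraMap ℂ (FieldC N) a)
  have hval : ordAt N z (x - algebraMap ℂ (FieldC N) a) =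
      (meromorphicOrderAt (fun w => f w - a) (z : ℂ)).untopD 0 := by
    rw [ordAt, ← hgx, ValTarget.ordZ,
      show (MeroGerm.valTarget (z : ℂ)).v = MeroGerm.ord from rfl, MeroGerm.ord_mk]
  rw [hval, hga.meromorphicOrderAt_eq] at hord
  by_contra hne
  rw [show analyticOrderAt (fun w => f w - a) (z : ℂ) = 0 from
    analyticOrderAt_eq_zero.mpr (Or.inr (sub_ne_zero.mpr (by simpa [hf] using hne)))] at hord
  have hidx := ellIndex_pos N z
  simp at hord
  rcases hord with h1 | h1 <;> omega

/-- The roots of the cusp polynomial at level nine are not values on the upper half plane. -/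
theorem u9_not_root {r : ℂ}
    (hr : (X ^ 3 + (C 9 * X ^ 2 + C 27 * X) : ℤ[X]).eval₂ (Int.castRingHom ℂ) r = 0) (τ : ℍ) :
    u9 τ ≠ r := by
  rintro rfl
  simp at hr
  rcases mul_eq_zero.mp (show u9 τ * (u9 τ ^ 2 + 9 * u9 τ + 27) = 0 by linear_combination hr)
    with h | h
  · exact etaQuot_ne_zero 1 9 3 1 τ h
  · exact u9_quadratic_ne h τ (sub_self _)

local notation "Qb" => AlgebraicClosure ℚ

/-- A zero of `R(u)` is a pole of `j`, when `u` takes no cusp value on `ℍ`. -/
theorem ord_jBar_neg_of_root {R : ℤ[X]}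
    (hne : ∀ τ, R.eval₂ (Int.castRingHom ℂ) (H.u τ) ≠ 0)
    [IsFunctionField1 Qb (modularFunctionFieldBar N)]
    {b : Qb} (hb : R.eval₂ (Int.castRingHom Qb) b = 0)
    {P : Place Qb (modularFunctionFieldBar N)}
    (hP : 0 < P.ord (uElt Qb H hN - algebraMap Qb (modularFunctionFieldBar N) b)) :
    P.ord (jBar Qb N) < 0 := by
  let φ : Qb →+* ℂ := (qbarToC : Qb →+* ℂ)
  let F := laurentBaseChange Qb (modularFunctionFieldFull N)
  let ψ : F →+* FieldC N := extendConstants (modularFunctionFieldFull N) φ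
  letI : Algebra Qb ℂ := φ.toAlgebra
  letI : Algebra F (FieldC N) := ψ.toAlgebra
  letI : Algebra Qb (FieldC N) := ((algebraMap ℂ (FieldC N)).comp φ).toAlgebra
  haveI : IsScalarTower Qb ℂ (FieldC N) := IsScalarTower.of_algebraMap_eq fun _ => rfl
  haveI : IsScalarTower Qb F (FieldC N) :=
    IsScalarTower.of_algebraMap_eq fun c =>
      (extendConstants_algebraMap (F₀ := modularFunctionFieldFull N) φ c).symm
  have hj : algebraMap F (FieldC N) (jBar Qb N) = jBar ℂ N := by
    refine Subtype.ext ?_
    show coeffMap φ (ModularCurve.jqModC Qb) = ModularCurve.jqModC ℂ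
    exact ModularCurve.coeffMap_jqModC φ
  have hjN : algebraMap F (FieldC N) (jNBar Qb N) = jNBar ℂ N := by
    refine Subtype.ext ?_
    show coeffMap φ (ModularCurve.jqNModC Qb N) = ModularCurve.jqNModC ℂ N
    exact ModularCurve.coeffMap_jqNModC φ N
  haveI : Descent.IsConstantExtension Qb ℂ F (FieldC N) := by
    refine ⟨top_le_iff.1 ?_, ⟨jBar Qb N, ?_⟩⟩
    · rw [← adjoin_jBar_jNBar ℂ N, IntermediateField.adjoin_le_iff]
      rintro x (rfl | rfl)
      · exact IntermediateField.subset_adjoin _ _ ⟨_, hj⟩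
      · exact IntermediateField.subset_adjoin _ _ ⟨_, hjN⟩
    · rw [hj]; exact transcendental_jBar ℂ N
  have hu : algebraMap F (FieldC N) (uElt Qb H hN - algebraMap Qb F b) =
      uElt ℂ H hN - algebraMap ℂ (FieldC N) (φ b) := by
    rw [map_sub]
    refine congrArg₂ (· - ·) (Subtype.ext ?_) (extendConstants_algebraMap φ b)
    show coeffMap φ (uElt Qb H hN : LaurentSeries Qb) = _
    rw [coe_uElt, coe_uElt, ModularCurve.coeffMap_coeffMap]
    exact ModularCurve.coeffMap_congr (RingHom.ext_int _ _) _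
  set P' := Descent.extPlace ℂ (FieldC N) P
  have hP' : 0 < P'.ord (uElt ℂ H hN - algebraMap ℂ (FieldC N) (φ b)) := by
    rw [← hu, Descent.ord_extPlace]; exact hP
  rw [← Descent.ord_extPlace (K' := ℂ) (F' := FieldC N) P (jBar Qb N), hj]
  rcases exists_point_or_cusp N P' with ⟨z, hz⟩ | ⟨γ, hγ⟩
  · exfalso
    refine hne z ?_
    rw [u_eq_of_ord_pos H hN (z := z) (hz ▸ hP'), ← φ.map_zero, ← hb, hom_eval₂]
    exact eval₂_congr (RingHom.ext_int _ _) rfl rfl
  · show P'.ord (jBar ℂ N) < 0
    rw [← hγ, ord_jBar_cuspPlace]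
    have := cuspWidth_pos N γ
    omega

end FermatAgent.MazurPrinciple.AwayThree
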