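import Fermat.Agent.BadRed.Carayol.Instance.EtaleC

/-!
# The ramification of `j` in characteristic zero at levels without elliptic points

The orders of `j - c` are bounded by `3`, `2`, `1`; without elliptic points the ones above `0`
and `1728` are all equal to `3` and `2`.
-/

set_option autoImplicit false
set_option linter.style.haveILetI false

noncomputable section

open UpperHalfPlane hiding I
open AlgebraicCurve
open scoped MatrixGroups
open FermatAgent.ModFun FermatAgent.ModCurve.Points FermatAgent.Curve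
open ModularCurve (coeffMap laurentBaseChange modularFunctionFieldFull modularFunctionFieldBar)

namespace FermatAgent.MazurPrinciple.AwayThree

variable (N : ℕ) [NeZero N]

/-- The order of `j - c` at a place over `c` is the ramification of a sheet. -/
theorem exists_ram_C {c : ℂ} {P : Place ℂ (FieldC N)}
    (hP : 0 < P.ord (jBar ℂ N - algebraMap ℂ (FieldC N) c)) :
    ∃ z, jFun z = c ∧ ∃ x, (affineSheets N z).place x = P ∧
      P.ord (jBar ℂ N - algebraMap ℂ (FieldC N) c) = (affineSheets N z).ram x := by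
  obtain ⟨z, rfl, rfl⟩ := exists_pointPlace_of_ord_pos (N := N) (P := P) (by rwa [jSubC_eq])
  refine ⟨z, rfl, baseCoset N, rfl, ?_⟩
  rw [← jSubC_eq]
  exact ((affineSheets N z).coe_ram (baseCoset N)).symm

/-- Away from `0` and `1728` all values of `j` are taken simply. -/
theorem ord_jBar_sub_le_one_C {c : ℂ} (h0 : c ≠ 0) (h1 : c ≠ 1728) (P : Place ℂ (FieldC N)) :
    P.ord (jBar ℂ N - algebraMap ℂ (FieldC N) c) ≤ 1 := by
  by_contra! h
  obtain ⟨z, rfl, x, -, e⟩ := exists_ram_C N (show 0 < _ from lt_trans one_pos h)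
  have hM := (affineSheets N z).step_mul_ram x
  rw [show (affineSheets N z).M = 1 from localMonodromy_M_eq_one h0 h1] at hM
  have := Nat.eq_one_of_mul_eq_one_left hM
  omega

/-- If all orders over a value are at most `e` and there are `ψ / e` places, all are `e`. -/
theorem ord_eq_of_card {z : ℍ} {e : ℕ} (he : (localMonodromy z).M = e)
    (hc : e * (affineSheets N z).places.card = Fintype.card (FermatAgent.ModCurveGroup.Edge
      (CongruenceSubgroup.Gamma0 N)))
    {P : Place ℂ (FieldC N)} (hP : P ∈ (affineSheets N z).places) :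
    P.ord (jSubC N (jFun z)) = e := by
  set S := affineSheets N z
  have hle : ∀ Q ∈ S.places, Q.ord S.J ≤ e := fun Q hQ => by
    obtain ⟨x, rfl⟩ := S.mem_places.1 hQ
    rw [← S.coe_ram]
    have h := S.step_mul_ram x
    rw [show S.M = e from he] at h
    exact_mod_cast Nat.le_of_dvd (he ▸ (localMonodromy z).M_pos) (Dvd.intro_left _ h)
  have hsum : ∑ Q ∈ S.places, Q.ord S.J = ∑ Q ∈ S.places, (e : ℤ) := by
    rw [Finset.sum_const, nsmul_eq_mul, S.sum_ord_places, mul_comm]
    exact_mod_cast hc.symm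
  exact (Finset.sum_eq_sum_iff_of_le hle).1 hsum P hP

theorem ord_jBar_C_eq_three (h3 : ModularCurve.nuThree N = 0) {P : Place ℂ (FieldC N)}
    (hP : 0 < P.ord (jBar ℂ N)) : P.ord (jBar ℂ N) = 3 := by
  obtain ⟨z, hz, x, hx, -⟩ := exists_ram_C N (c := 0) (P := P) (by rwa [map_zero, sub_zero])
  obtain ⟨γ, rfl⟩ := exists_smul_of_jFun_eq (jFun_rho.trans hz.symm)
  have hcard : (affineSheets N (γ • ρ)).places.card = (affineSheets N ρ).places.card := by
    rw [← zerosAt_jGen, ← zerosAt_jGen, jFun_smul]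
  have h := ord_eq_of_card N (localMonodromy_M_eq_three hz) (by
    have := three_mul_card_places_rho N
    rw [h3] at this
    rw [hcard]; omega) ((affineSheets N (γ • ρ)).mem_places.2 ⟨x, hx⟩)
  rwa [jSubC_eq, hz, map_zero, sub_zero] at h

theorem ord_jBar_sub_C_eq_two (h2 : ModularCurve.nuTwo N = 0) {P : Place ℂ (FieldC N)}
    (hP : 0 < P.ord (jBar ℂ N - algebraMap ℂ (FieldC N) 1728)) :
    P.ord (jBar ℂ N - algebraMap ℂ (FieldC N) 1728) = 2 := by
  obtain ⟨z, hz, x, hx, -⟩ := exists_ram_C N hP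
  obtain ⟨γ, rfl⟩ := exists_smul_of_jFun_eq (jFun_I.trans hz.symm)
  have hcard : (affineSheets N (γ • UpperHalfPlane.I)).places.card =
      (affineSheets N UpperHalfPlane.I).places.card := by
    rw [← zerosAt_jGen, ← zerosAt_jGen, jFun_smul]
  have h := ord_eq_of_card N (localMonodromy_M_eq_two hz) (by
    have := two_mul_card_places_I N
    rw [h2] at this
    rw [hcard]; omega) ((affineSheets N (γ • UpperHalfPlane.I)).mem_places.2 ⟨x, hx⟩)
  rwa [jSubC_eq, hz] at h

local notation "Qb" => AlgebraicClosure ℚ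

/-- A place over `ℂ` with the same orders of `j - c`. -/
theorem exists_place_C [IsFunctionField1 Qb (modularFunctionFieldBar N)]
    (P : Place Qb (modularFunctionFieldBar N)) :
    ∃ P' : Place ℂ (FieldC N), ∀ c : Qb,
      P'.ord (jBar ℂ N - algebraMap ℂ (FieldC N) (qbarToC c)) =
        P.ord (jBar Qb N - algebraMap Qb (modularFunctionFieldBar N) c) := by
  let φ : Qb →+* ℂ := (qbarToC : Qb →+* ℂ)
  let F := laurentBaseChange Qb (modularFunctionFieldFull N)
  let ψ : F →+* FieldC N := extendConstants (modularFunctionFieldFull N) φ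
  letI : Algebra Qb ℂ := φ.toAlgebra
  letI : Algebra F (FieldC N) := ψ.toAlgebra
  letI : Algebra Qb (FieldC N) := ((algebraMap ℂ (FieldC N)).comp φ).toAlgebra
  haveI : IsScalarTower Qb ℂ (FieldC N) := IsScalarTower.of_algebraMap_eq fun _ => rfl
  haveI : IsScalarTower Qb F (FieldC N) :=
    IsScalarTower.of_algebraMap_eq fun c =>
      (extendConstants_algebraMap (F₀ := modularFunctionFieldFull N) φ c).symm
  have hj : algebraMap F (FieldC N) (jBar Qb N) = jBar ℂ N := by
    refine Subtype.ext ?_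
    show coeffMap φ (ModularCurve.jqModC Qb) = ModularCurve.jqModC ℂ
    exact ModularCurve.coeffMap_jqModC φ
  have hjN : algebraMap F (FieldC N) (jNBar Qb N) = jNBar ℂ N := by
    refine Subtype.ext ?_
    show coeffMap φ (ModularCurve.jqNModC Qb N) = ModularCurve.jqNModC ℂ N
    exact ModularCurve.coeffMap_jqNModC φ N
  haveI : Descent.IsConstantExtension Qb ℂ F (FieldC N) := by
    refine ⟨top_le_iff.1 ?_, ⟨jBar Qb N, ?_⟩⟩
    · rw [← adjoin_jBar_jNBar ℂ N, IntermediateField.adjoin_le_iff]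
      rintro x (rfl | rfl)
      · exact IntermediateField.subset_adjoin _ _ ⟨_, hj⟩
      · exact IntermediateField.subset_adjoin _ _ ⟨_, hjN⟩
    · rw [hj]; exact transcendental_jBar ℂ N
  refine ⟨Descent.extPlace ℂ (FieldC N) P, fun c => ?_⟩
  have e : algebraMap F (FieldC N) (jBar Qb N - algebraMap Qb F c) =
      jBar ℂ N - algebraMap ℂ (FieldC N) (φ c) := by
    rw [map_sub, hj]
    exact congrArg (jBar ℂ N - ·) (extendConstants_algebraMap φ c)
  show _ = P.ord (jBar Qb N - algebraMap Qb F c)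
  rw [← Descent.ord_extPlace (K' := ℂ) (F' := FieldC N) P (jBar Qb N - algebraMap Qb F c), e]
  rfl

variable [IsFunctionField1 Qb (modularFunctionFieldBar N)]

theorem ord_jBar_sub_le_one {c : Qb} (h0 : c ≠ 0) (h1 : c ≠ 1728)
    (P : Place Qb (modularFunctionFieldBar N)) :
    P.ord (jBar Qb N - algebraMap Qb (modularFunctionFieldBar N) c) ≤ 1 := by
  obtain ⟨P', hP'⟩ := exists_place_C N P
  rw [← hP']
  exact ord_jBar_sub_le_one_C N ((map_ne_zero qbarToC).2 h0)
    (fun h => h1 (qbarToC.toRingHom.injective (h.trans (map_ofNat qbarToC 1728).symm))) P'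

theorem ord_jBar_eq_three (h3 : ModularCurve.nuThree N = 0)
    {P : Place Qb (modularFunctionFieldBar N)} (hP : 0 < P.ord (jBar Qb N)) :
    P.ord (jBar Qb N) = 3 := by
  obtain ⟨P', hP'⟩ := exists_place_C N P
  have e := hP' 0
  simp only [map_zero, sub_zero] at e
  rw [← e] at hP ⊢
  exact ord_jBar_C_eq_three N h3 hP

theorem ord_jBar_sub_eq_two (h2 : ModularCurve.nuTwo N = 0)
    {P : Place Qb (modularFunctionFieldBar N)}
    (hP : 0 < P.ord (jBar Qb N - algebraMap Qb (modularFunctionFieldBar N) 1728)) :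
    P.ord (jBar Qb N - algebraMap Qb (modularFunctionFieldBar N) 1728) = 2 := by
  obtain ⟨P', hP'⟩ := exists_place_C N P
  have e := hP' 1728
  rw [map_ofNat qbarToC 1728] at e
  rw [← e] at hP ⊢
  exact ord_jBar_sub_C_eq_two N h2 hP

/-- No root of `x² + x + 1` modulo a divisor. -/
theorem nuThree_eq_zero_of_dvd {M d : ℕ} (hd : d ∣ M) (h : ∀ x : ZMod d, x ^ 2 + x + 1 ≠ 0) :
    ModularCurve.nuThree M = 0 := by
  have : IsEmpty {x : ZMod M // x ^ 2 + x + 1 = 0} :=
    ⟨fun ⟨x, hx⟩ => h (ZMod.castHom hd (ZMod d) x) (by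
      simpa only [map_add, map_pow, map_one, map_zero] using congrArg (ZMod.castHom hd (ZMod d)) hx)⟩
  exact Nat.card_of_isEmpty

theorem nuTwo_eq_zero_of_dvd {M d : ℕ} (hd : d ∣ M) (h : ∀ x : ZMod d, x ^ 2 + 1 ≠ 0) :
    ModularCurve.nuTwo M = 0 := by
  have : IsEmpty {x : ZMod M // x ^ 2 + 1 = 0} :=
    ⟨fun ⟨x, hx⟩ => h (ZMod.castHom hd (ZMod d) x) (by
      simpa only [map_add, map_pow, map_one, map_zero] using congrArg (ZMod.castHom hd (ZMod d)) hx)⟩
  exact Nat.card_of_isEmpty

theorem nuThree_eq_zero {M : ℕ} (h : 4 ∣ M ∨ 9 ∣ M) : ModularCurve.nuThree M = 0 := by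
  rcases h with h | h <;> exact nuThree_eq_zero_of_dvd h (by decide)

theorem nuTwo_eq_zero {M : ℕ} (h : 4 ∣ M ∨ 9 ∣ M) : ModularCurve.nuTwo M = 0 := by
  rcases h with h | h <;> exact nuTwo_eq_zero_of_dvd h (by decide)

end FermatAgent.MazurPrinciple.AwayThree
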