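import Fermat.Agent.BadRed.Carayol.Instance.EtaleFibre

/-!
# Orders of reductions

Orders on the special fibre are sums over the places reducing to the given one, and when the
Riemann–Hurwitz bound is attained reduction is injective on the special places.
-/

set_option autoImplicit false

noncomputable section

open AlgebraicCurve IntermediateField
open FermatAgent.Curve FermatAgent.JacCharts FermatAgent.BadRed.Carayol.Instance
open FermatAgent.Curve.RR (RRSetting polePart polePart_apply polePart_nonneg)

namespace FermatAgent.MazurPrinciple.AwayThree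

variable {K : Type*} [Field K] {A : ValuationSubring K} {k : Type*} [Field k] {π : A →+* k}
variable {F : Type*} [Field F] [Algebra K F] {Fb : Type*} [Field Fb] [Algebra k Fb]
variable {d : GoodReductionDatum A π F Fb} [RRSetting K F] [RRSetting k Fb]

/-- An integer dividing the orders at all places over `Q` divides the order at `Q`. -/
theorem dvd_ord_red {f : F} {fb : Fb} (h : d.RedsTo f fb) (h0 : fb ≠ 0) {Q : Place k Fb} {n : ℤ}
    (hn : ∀ P, d.place P = Q → n ∣ P.ord f) : n ∣ Q.ord fb := by
  classical
  have e := DFunLike.congr_fun (h.redDiv_divOf h0) Q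
  rw [divOf_apply h0, Finsupp.mapDomain.addMonoidHom_apply, Finsupp.mapDomain, Finsupp.sum_apply,
    Finsupp.sum] at e
  rw [← e]
  refine Finset.dvd_sum fun P _ => ?_
  rw [Finsupp.single_apply]
  split_ifs with hP
  · rw [divOf_apply (h.ne_zero h0)]; exact hn P hP
  · exact dvd_zero n

/-- Where reduction is injective the orders are unchanged. -/
theorem ord_red_of_injOn {f : F} {fb : Fb} (h : d.RedsTo f fb) (h0 : fb ≠ 0)
    {S : Set (Place K F)} (hS : Set.InjOn d.place S) (hf : ∀ P, P.ord f ≠ 0 → P ∈ S)
    {P : Place K F} (hP : P ∈ S) : (d.place P).ord fb = P.ord f := by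
  have e := DFunLike.congr_fun (h.redDiv_divOf h0) (d.place P)
  rw [divOf_apply h0, Finsupp.mapDomain.addMonoidHom_apply,
    Finsupp.mapDomain_apply' S _ (fun R hR => hf R (by
      rw [← divOf_apply (h.ne_zero h0)]; exact Finsupp.mem_support_iff.mp hR)) hS hP,
    divOf_apply (h.ne_zero h0)] at e
  exact e.symm

variable [IsAlgClosed K] [IsAlgClosed k] [IsFunctionField1 K F] [IsFunctionField1 k Fb]

/-- When the degree is kept, poles reduce to poles. -/
theorem ord_place_neg {f : F} {fb : Fb} (h : d.RedsTo f fb) (hT : Transcendental K f)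
    (hTb : Transcendental k fb) (hdeg : Module.finrank k⟮fb⟯ Fb = Module.finrank K⟮f⟯ F)
    {P : Place K F} (hP : P.ord f < 0) : (d.place P).ord fb < 0 := by
  classical
  have h0 : fb ≠ 0 := fun e => hTb (e ▸ isAlgebraic_zero)
  set E := d.redDiv (polePart (K := K) f)
  have hsum : d.redDiv (divOf (K := K) f + polePart (K := K) f) = divOf (K := k) fb + E := by
    rw [map_add, h.redDiv_divOf h0]
  have hnn : 0 ≤ divOf (K := k) fb + E := by
    rw [← hsum]
    refine GoodReductionDatum.redDiv_nonneg (Finsupp.le_def.mpr fun R => ?_)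
    rw [Finsupp.coe_zero, Pi.zero_apply, Finsupp.add_apply, divOf_apply (h.ne_zero h0),
      polePart_apply]
    omega
  have hle : polePart (K := k) fb ≤ E := Finsupp.le_def.mpr fun Q => by
    have h1 := Finsupp.le_def.mp hnn Q
    have h2 := Finsupp.le_def.mp
      (GoodReductionDatum.redDiv_nonneg (d := d) (polePart_nonneg (K := K) f)) Q
    rw [Finsupp.coe_zero, Pi.zero_apply, Finsupp.add_apply, divOf_apply h0] at h1
    rw [Finsupp.coe_zero, Pi.zero_apply] at h2
    rw [polePart_apply]
    exact max_le h2 (by omega)
  have hPE : 0 < E (d.place P) := by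
    have h1 : (Finsupp.single P 1 : Divisor K F) ≤ polePart (K := K) f :=
      Finsupp.le_def.mpr fun R => by
        rw [polePart_apply, Finsupp.single_apply]
        split_ifs with hR
        · subst hR; omega
        · exact le_max_left _ _
    have h2 := Finsupp.le_def.mp (GoodReductionDatum.redDiv_mono (d := d) h1) (d.place P)
    rw [Finsupp.mapDomain.addMonoidHom_apply, Finsupp.mapDomain_single,
      Finsupp.single_eq_same] at h2
    exact lt_of_lt_of_le one_pos h2
  by_contra! hQ
  have hD : 0 ≤ E - polePart (K := k) fb - Finsupp.single (d.place P) 1 :=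
    Finsupp.le_def.mpr fun Q => by
      have h1 := Finsupp.le_def.mp hle Q
      rw [Finsupp.coe_zero, Pi.zero_apply, Finsupp.sub_apply, Finsupp.sub_apply,
        Finsupp.single_apply]
      split_ifs with hR
      · subst hR
        rw [polePart_apply, max_eq_left (by omega)]
        omega
      · omega
  have h3 := JacCharts.degree_nonneg hD
  rw [map_sub, map_sub, GoodReductionDatum.degree_redDiv, Curve.RR.degree_polePart_eq hT,
    Curve.RR.degree_polePart_eq hTb, Divisor.degree_single, RRSetting.deg_eq_one, hdeg] at h3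
  simp at h3

/-- When all ramification in characteristic zero lies over `C` and the degree is kept, the
fibre is unramified outside `C` and reduction is injective over `C`. -/
theorem unramified_and_injOn [CharZero K] [DecidableEq K] [DecidableEq k] {x : F} {xb : Fb}
    (hx : d.RedsTo x xb) (hxT : Transcendental K x) (hxb : Transcendental k xb)
    [Algebra.IsSeparable k⟮xb⟯ Fb]
    (hdeg : Module.finrank k⟮xb⟯ Fb = Module.finrank K⟮x⟯ F)
    (C : Finset A) (hinj : Set.InjOn π (C : Set A))
    (hunram : ∀ c : K, c ∉ C.image (fun b : A => (b : K)) →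
      ∀ P : Place K F, P.ord (x - algebraMap K F c) ≤ 1)
    {a₀ : k} (ha₀ : a₀ ∉ C.image π) :
    (∀ a ∉ C.image π, ∀ Q : Place k Fb, Q.ord (xb - algebraMap k Fb a) ≤ 1) ∧
      Set.InjOn d.place (specialPlaces x (C.image fun b : A => (b : K)) : Set (Place K F)) := by
  classical
  set S := specialPlaces x (C.image fun b : A => (b : K))
  set Sb := specialPlaces xb (C.image π)
  have hsub : Sb ⊆ S.image d.place := fun Q hQ => by
    rw [Finset.mem_image]
    rw [mem_specialPlaces] at hQ
    rcases hQ with ⟨b, hb, hQ⟩ | hQ
    · obtain ⟨c, hc, rfl⟩ := Finset.mem_image.mp hb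
      obtain ⟨P, rfl, hP⟩ := (exists_place_eq (hx.sub (GoodReductionDatum.redsTo_algebraMap c))
        (fun h0 => by rw [h0, Place.ord_zero] at hQ; omega) Q).1 hQ
      exact ⟨P, mem_specialPlaces.mpr (Or.inl ⟨_, Finset.mem_image_of_mem _ hc, hP⟩), rfl⟩
    · obtain ⟨P, rfl, hP⟩ := (exists_place_eq hx (fun h0 => hxb (h0 ▸ isAlgebraic_zero)) Q).2 hQ
      exact ⟨P, mem_specialPlaces.mpr (Or.inr hP), rfl⟩
  have h1 := card_specialPlaces hxT (C := C.image fun b : A => (b : K)) hunram
  have hcard : (C.image fun b : A => (b : K)).card = C.card :=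
    Finset.card_image_of_injective _ Subtype.val_injective
  have key : ∀ a ∉ C.image π, ∀ Q : Place k Fb, 0 < Q.ord (xb - algebraMap k Fb a) →
      (S.card : ℤ) - Sb.card + (Q.ord (xb - algebraMap k Fb a) - 1) ≤ 0 := fun a ha Q hQ => by
    have h2 := ord_sub_le_of_special hxb ha hQ
    rw [Finset.card_image_of_injOn hinj, d.genus_eq, hdeg] at h2
    rw [hcard] at h1
    linarith
  have hle : Sb.card ≤ (S.image d.place).card := Finset.card_le_card hsub
  have hle' : (S.image d.place).card ≤ S.card := Finset.card_image_le
  refine ⟨fun a ha Q => ?_, ?_⟩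
  · by_contra! hQ
    have := key a ha Q (by omega)
    omega
  · obtain ⟨Q, hQ⟩ := exists_ord_pos_of_transcendental
      (Curve.transcendental_sub_const hxb a₀)
    have := key a₀ ha₀ Q hQ
    exact Finset.card_image_iff.mp (by omega)

end FermatAgent.MazurPrinciple.AwayThree
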