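import Fermat.Agent.MazurPrinciple.AwayThree.Elliptic
import Fermat.Agent.MazurPrinciple.AwayThree.Reduction
import Fermat.Agent.BadRed.Semistable.Residue
import Fermat.Agent.Mazur.Step3.Cusps

/-!
# The ramification of `j` on the fibre at a prime at least five

At a level without elliptic points the orders of `j - c` on the fibre are `3` at `0`, `2` at
`1728` and `1` elsewhere.
-/

set_option autoImplicit false
set_option linter.style.haveILetI false

noncomputable section

open AlgebraicCurve IntermediateField IsLocalRing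
open FermatAgent.Curve FermatAgent.JacCharts FermatAgent.ModFun FermatAgent.BadRed.Semistable
open FermatAgent.BadRed.Carayol.Instance
open ModularCurve (modularFunctionFieldFullC modularFunctionFieldBar)

namespace FermatAgent.MazurPrinciple.AwayThree

local notation "Qb" => AlgebraicClosure ℚ

variable {q : ℕ} {A : ValuationSubring Qb} {N : ℕ} [NeZero N]

/-- `j` reduces to `j`. -/
theorem redsTo_jBar (hq : q.Prime) (hqN : ¬ q ∣ N) (hA : A.LiesOverPrime q) :
    (Igusa.Down.datum N hq hqN hA).RedsTo (jBar Qb N) (jFib (ResidueField A) N) := by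
  haveI := Fact.mk hq
  haveI := Igusa.Down.charP_residueField hq hA
  refine ⟨(Igusa.Down.tBar A N).2, Subtype.ext ?_⟩
  show ((Igusa.Down.redBar A N hqN (Igusa.Down.tBar A N) :
    modularFunctionFieldFullC (ResidueField A) N) : LaurentSeries (ResidueField A)) = _
  rw [Igusa.Down.coe_redBar_tBar]
  rfl

theorem finrank_adjoin_jFib (hq : q.Prime) (hqN : ¬ q ∣ N) (hA : A.LiesOverPrime q) :
    Module.finrank (ResidueField A)⟮jFib (ResidueField A) N⟯
      (modularFunctionFieldFullC (ResidueField A) N) =
      Module.finrank Qb⟮jBar Qb N⟯ (modularFunctionFieldBar N) := by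
  haveI := Fact.mk hq
  haveI := Igusa.Down.charP_residueField hq hA
  have e : Igusa.Down.redBar A N hqN (Igusa.Down.tBar A N) = jFib (ResidueField A) N :=
    Subtype.ext ((Igusa.Down.coe_redBar_tBar A N hqN).trans (coe_jFib).symm)
  rw [finrank_adjoin_jBar, ← e, Igusa.Down.finrank_fibre A N hqN hA]

theorem isSeparable_adjoin_jFib (hq : q.Prime) (hA : A.LiesOverPrime q)
    [IsAlgClosed (ResidueField A)]
    [IsFunctionField1 (ResidueField A) (modularFunctionFieldFullC (ResidueField A) N)] :
    Algebra.IsSeparable (ResidueField A)⟮jFib (ResidueField A) N⟯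
      (modularFunctionFieldFullC (ResidueField A) N) := by
  haveI := Fact.mk hq
  haveI := Igusa.Down.charP_residueField hq hA
  haveI : CharP (modularFunctionFieldFullC (ResidueField A) N) q :=
    charP_of_injective_algebraMap (algebraMap (ResidueField A) _).injective q
  refine isSeparable_adjoin_of_ne_pow q transcendental_jFib fun z hz => ?_
  have h : ((z : LaurentSeries (ResidueField A))) ^ q = ModularCurve.jqModC (ResidueField A) := by
    rw [← SubmonoidClass.coe_pow, hz, coe_jFib]
  have ho := Mazur.Step3.order_jqModC (ResidueField A)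
  rw [← h, HahnSeries.order_pow, nsmul_eq_mul] at ho
  rcases Int.mul_eq_neg_one_iff_eq_one_or_neg_one.mp ho with ⟨h1, -⟩ | ⟨h1, -⟩
  · have := hq.one_lt; omega
  · omega

/-- An integer is zero in the residue field iff `q` divides it. -/
theorem residue_ofNat_ne_zero (hq : q.Prime) (h5 : 5 ≤ q) (hA : A.LiesOverPrime q) :
    residue A (1728 : A) ≠ 0 := by
  haveI := Igusa.Down.charP_residueField hq hA
  intro h
  have h' : ((1728 : ℕ) : ResidueField A) = 0 := by
    rw [← map_natCast (residue A)]; exact_mod_cast h
  rw [CharP.cast_eq_zero_iff (ResidueField A) q] at h'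
  rcases (hq.dvd_mul (m := 2 ^ 6) (n := 3 ^ 3)).mp h' with h | h
  · have := (Nat.prime_dvd_prime_iff_eq hq Nat.prime_two).mp (hq.dvd_of_dvd_pow h); omega
  · have := (Nat.prime_dvd_prime_iff_eq hq Nat.prime_three).mp (hq.dvd_of_dvd_pow h); omega

variable (hq : q.Prime) (h5 : 5 ≤ q) (hA : A.LiesOverPrime q) (hqN : ¬ q ∣ N)
  (hN : 4 ∣ N ∨ 9 ∣ N) [IsAlgClosed (ResidueField A)]
  [IsFunctionField1 Qb (modularFunctionFieldBar N)]
  [IsFunctionField1 (ResidueField A) (modularFunctionFieldFullC (ResidueField A) N)]

include hq h5 hA hqN in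
theorem unramified_and_injOn_jBar :
    (∀ a : ResidueField A, a ≠ 0 → a ≠ residue A (1728 : A) →
      ∀ Q : Place (ResidueField A) (modularFunctionFieldFullC (ResidueField A) N),
        Q.ord (jFib (ResidueField A) N - algebraMap (ResidueField A) _ a) ≤ 1) ∧
      Set.InjOn (Igusa.Down.datum N hq hqN hA).place
        {P | P.ord (jBar Qb N) ≠ 0 ∨
          P.ord (jBar Qb N - algebraMap Qb (modularFunctionFieldBar N) 1728) ≠ 0} := by
  classical
  have := isSeparable_adjoin_jFib (N := N) hq hA
  have h1728 := residue_ofNat_ne_zero hq h5 hA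
  set C : Finset A := {0, 1728} with hC
  have hCK : C.image (fun b : A => (b : Qb)) = {0, 1728} := by
    rw [hC, Finset.image_insert, Finset.image_singleton]
    rfl
  have hCk : C.image (residue A) = {0, residue A (1728 : A)} := by
    rw [hC, Finset.image_insert, Finset.image_singleton, map_zero]
  have hinj : Set.InjOn (residue A) (C : Set A) := by
    intro b hb c hc h
    simp only [hC, Finset.coe_insert, Finset.coe_singleton, Set.mem_insert_iff,
      Set.mem_singleton_iff] at hb hc
    rcases hb with rfl | rfl <;> rcases hc with rfl | rfl <;>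
      first | rfl | exact absurd ((map_zero (residue A)).symm.trans h).symm h1728
            | exact absurd (h.trans (map_zero _)) h1728
  obtain ⟨a₀, ha₀⟩ := Infinite.exists_notMem_finset (C.image (residue A))
  obtain ⟨h1, h2⟩ := unramified_and_injOn (redsTo_jBar hq hqN hA) (transcendental_jBar Qb N)
    transcendental_jFib (finrank_adjoin_jFib hq hqN hA) C hinj (fun c hc P => by
      rw [hCK] at hc
      simp only [Finset.mem_insert, Finset.mem_singleton, not_or] at hc
      exact ord_jBar_sub_le_one N hc.1 hc.2 P) ha₀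
  refine ⟨fun a ha ha' => h1 a (by rw [hCk]; simp [ha, ha']), h2.mono fun P hP => ?_⟩
  show P ∈ specialPlaces _ _
  rw [mem_specialPlaces, hCK]
  rcases lt_or_ge (P.ord (jBar Qb N)) 0 with hneg | hge
  · exact Or.inr hneg
  refine Or.inl ?_
  rcases hP with hP | hP
  · exact ⟨0, by simp, by rw [map_zero, sub_zero]; omega⟩
  · refine ⟨1728, by simp, lt_of_le_of_ne ?_ (Ne.symm hP)⟩
    exact ord_nonneg_of_mem' P (sub_mem ((Curve.mem_iff_ord_nonneg P).mpr (Or.inr hge))
      (P.algebraMap_mem' _))

include hq h5 hA hqN hN in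
/-- Over `0` the order of `j` on the fibre is three. -/
theorem ord_jFib_eq_three {Q : Place (ResidueField A) (modularFunctionFieldFullC (ResidueField A) N)}
    (hQ : 0 < Q.ord (jFib (ResidueField A) N)) : Q.ord (jFib (ResidueField A) N) = 3 := by
  have hj0 : jFib (ResidueField A) N ≠ 0 := fun h => by rw [h, Place.ord_zero] at hQ; omega
  obtain ⟨P, hPQ, hP⟩ := (exists_place_eq (redsTo_jBar hq hqN hA) hj0 Q).1 hQ
  rw [← hPQ, ord_red_of_injOn (redsTo_jBar hq hqN hA) hj0
    (unramified_and_injOn_jBar hq h5 hA hqN).2 (fun R hR => Or.inl hR) (Or.inl hP.ne'),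
    ord_jBar_eq_three N (nuThree_eq_zero hN) hP]

include hq h5 hA hqN hN in
/-- Elsewhere the order of `j - c` on the fibre is at most two. -/
theorem ord_jFib_sub_le_two {a : ResidueField A} (ha : a ≠ 0)
    (Q : Place (ResidueField A) (modularFunctionFieldFullC (ResidueField A) N)) :
    Q.ord (jFib (ResidueField A) N - algebraMap (ResidueField A) _ a) ≤ 2 := by
  rcases eq_or_ne a (residue A (1728 : A)) with rfl | ha'
  · by_contra! hgt
    have hr := (redsTo_jBar hq hqN hA).sub
      (GoodReductionDatum.redsTo_algebraMap (1728 : A))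
    rw [show ((1728 : A) : Qb) = 1728 from map_ofNat A.subtype 1728] at hr
    set fb := jFib (ResidueField A) N -
      algebraMap (ResidueField A) (modularFunctionFieldFullC (ResidueField A) N) (residue A (1728 : A))
    have hj0 : fb ≠ 0 := fun h => by rw [h, Place.ord_zero] at hgt; omega
    obtain ⟨P, hPQ, hP⟩ := (exists_place_eq hr hj0 Q).1 (by omega)
    rw [← hPQ, ord_red_of_injOn hr hj0 (unramified_and_injOn_jBar hq h5 hA hqN).2
      (fun R hR => Or.inr hR) (Or.inr hP.ne'),
      show P.ord _ = 2 from ord_jBar_sub_eq_two N (nuTwo_eq_zero hN) hP] at hgt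
    omega
  · exact ((unramified_and_injOn_jBar hq h5 hA hqN).1 a ha ha' Q).trans one_le_two

end FermatAgent.MazurPrinciple.AwayThree
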