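import Fermat.Agent.MazurPrinciple.AwayThree.CharTwo
import Fermat.Agent.MazurPrinciple.AwayThree.CuspValues
import Fermat.Agent.MazurPrinciple.AwayThree.Fibre
import Fermat.Agent.BadRed.Carayol.Instance.Etale

/-!
# The ramification of `j` on the fibre at two, at levels divisible by nine

In the coordinate of level nine: the orders over `0` are at most `12`, and elsewhere `1`.
-/

set_option autoImplicit false
set_option linter.unusedSectionVars false
set_option linter.style.haveILetI false
set_option maxHeartbeats 1000000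

noncomputable section

open Polynomial AlgebraicCurve IntermediateField IsLocalRing
open FermatAgent.Curve FermatAgent.JacCharts FermatAgent.ModFun FermatAgent.BadRed.Semistable
open FermatAgent.BadRed.Carayol.Instance
open ModularCurve (coeffMap modularFunctionFieldFullC modularFunctionFieldBar)
open FermatAgent.MazurPrinciple (inertiaField)

namespace FermatAgent.MazurPrinciple.AwayThree

section Abstract

/-- The order of a polynomial in a function taking the value `a` simply. -/
theorem ord_aeval_eq_rootMultiplicity {K F : Type*} [Field K] [Field F] [Algebra K F]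
    [IsAlgClosed K] [IsFunctionField1 K F] (v : Place K F) {x : F} {a : K}
    (h : v.ord (x - algebraMap K F a) = 1) {p : K[X]} (hp : p ≠ 0) :
    v.ord (aeval x p) = p.rootMultiplicity a := by
  obtain ⟨g, hg, hndvd⟩ := exists_eq_pow_rootMultiplicity_mul_and_not_dvd p hp a
  rw [dvd_iff_isRoot, IsRoot.def] at hndvd
  have hx : x ∈ v.toValuationSubring := by
    simpa using add_mem ((Curve.mem_iff_ord_nonneg v).mpr (Or.inr (by omega : (0 : ℤ) ≤
      v.ord (x - algebraMap K F a)))) (v.algebraMap_mem' a)
  have hgm := Curve.Diff.aeval_mem v hx g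
  have hgv : valueAt v (aeval x g) = g.eval a := by
    rw [valueAt_aeval v hx, valueAt_eq_of v (a := a) (Or.inr (by omega))]
  have hg0 : aeval x g ≠ 0 := fun h0 => hndvd (by
    rw [← hgv, h0, ← map_zero (algebraMap K F), valueAt_algebraMap])
  have hgo : v.ord (aeval x g) = 0 := by
    refine le_antisymm ?_ (ord_nonneg_of_mem' v hgm)
    by_contra hlt
    exact hndvd (hgv ▸ (valueAt_eq_zero_iff v hgm).mpr (Or.inr (by omega)))
  have hx0 : x - algebraMap K F a ≠ 0 := fun e => by rw [e, Place.ord_zero] at h; omega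
  conv_lhs => rw [hg]
  rw [map_mul, map_pow, map_sub, aeval_X, aeval_C, v.ord_mul (pow_ne_zero _ hx0) hg0, hgo,
    Curve.ord_pow', h]
  ring

/-- The order of a polynomial in a series with a simple pole. -/
theorem order_aeval_simple_pole {K : Type*} [Field K] {x : LaurentSeries K}
    (hx : x.order = -1) {p : K[X]} (hp : p ≠ 0) :
    aeval x p ≠ 0 ∧ (aeval x p).order = -(p.natDegree : ℤ) := by
  have hx0 : x ≠ 0 := fun e => by rw [e, HahnSeries.order_zero] at hx; omega
  induction hn : p.natDegree using Nat.strong_induction_on generalizing p with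
  | _ n ih =>
    have hlc : algebraMap K (LaurentSeries K) p.leadingCoeff ≠ 0 :=
      (_root_.map_ne_zero _).mpr (leadingCoeff_ne_zero.mpr hp)
    set t := algebraMap K (LaurentSeries K) p.leadingCoeff * x ^ n with ht
    have ht0 : t ≠ 0 := mul_ne_zero hlc (pow_ne_zero _ hx0)
    have hto : t.order = -(n : ℤ) := by
      rw [ht, HahnSeries.order_mul hlc (pow_ne_zero _ hx0), HahnSeries.order_pow, hx,
        ModularCurve.algebraMap_laurentSeries_eq_single,
        HahnSeries.order_single (leadingCoeff_ne_zero.mpr hp)]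
      simp
    have hsplit : aeval x p = t + aeval x p.eraseLead := by
      conv_lhs => rw [← p.eraseLead_add_C_mul_X_pow]
      simp [ht, hn, add_comm]
    have hlow : ∀ m : ℤ, m ≤ -(n : ℤ) → (aeval x p.eraseLead).coeff m = 0 := by
      intro m hm
      rcases eq_or_ne p.eraseLead 0 with h0 | h0
      · simp [h0]
      have hlt : p.eraseLead.natDegree < n := by
        rcases p.eraseLead_natDegree_lt_or_eraseLead_eq_zero with h | h
        · rwa [hn] at h
        · exact absurd h h0
      exact HahnSeries.coeff_eq_zero_of_lt_order (by rw [(ih _ hlt h0 rfl).2]; omega)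
    have hne : (aeval x p).coeff (-(n : ℤ)) ≠ 0 := by
      rw [hsplit, HahnSeries.coeff_add, hlow _ le_rfl, add_zero, ← hto]
      exact HahnSeries.coeff_order_eq_zero.not.mpr ht0
    have h0 : aeval x p ≠ 0 := fun e => by rw [e, HahnSeries.coeff_zero] at hne; exact hne rfl
    refine ⟨h0, le_antisymm (HahnSeries.order_le_of_coeff_ne_zero hne) ?_⟩
    by_contra! hlt
    refine HahnSeries.coeff_order_eq_zero.not.mpr h0 ?_
    rw [hsplit] at hlt ⊢
    rw [HahnSeries.coeff_add, hlow _ hlt.le,
      HahnSeries.coeff_eq_zero_of_lt_order (by rw [hto]; exact hlt), add_zero]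

/-- The roots of a polynomial over the prime field are stable under the Frobenius. -/
theorem eval_map_pow_char {k : Type*} [Field k] (p : ℕ) [Fact p.Prime] [CharP k p] (P : ℤ[X])
    (a : k) : (P.map (Int.castRingHom k)).eval (a ^ p) =
      (P.map (Int.castRingHom k)).eval a ^ p := by
  rw [eval_map, eval_map, ← frobenius_def, ← frobenius_def, hom_eval₂]
  exact eval₂_congr (RingHom.ext_int _ _) rfl rfl

end Abstract

/-- At a level without elliptic points, where `1728` vanishes on the fibre, the orders over zero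
are divisible by `6`. -/
theorem six_dvd_ord_jFib_of_elliptic {q : ℕ} {A : ValuationSubring (AlgebraicClosure ℚ)} {N : ℕ}
    [NeZero N] [IsAlgClosed (ResidueField A)]
    [IsFunctionField1 (AlgebraicClosure ℚ) (modularFunctionFieldBar N)]
    [IsFunctionField1 (ResidueField A) (modularFunctionFieldFullC (ResidueField A) N)]
    (hq : q.Prime) (hqN : ¬ q ∣ N) (hA : A.LiesOverPrime q) (hν2 : ModularCurve.nuTwo N = 0)
    (hν3 : ModularCurve.nuThree N = 0) (h1728 : residue A (1728 : A) = 0)
    {Q : Place (ResidueField A) (modularFunctionFieldFullC (ResidueField A) N)}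
    (hQ : 0 < Q.ord (jFib (ResidueField A) N)) : (6 : ℤ) ∣ Q.ord (jFib (ResidueField A) N) := by
  have hr := redsTo_jBar hq hqN hA (N := N)
  have hj0 : jFib (ResidueField A) N ≠ 0 := fun h => by rw [h, Place.ord_zero] at hQ; omega
  have hnopole : ∀ P, (Igusa.Down.datum N hq hqN hA).place P = Q →
      0 ≤ P.ord (jBar (AlgebraicClosure ℚ) N) := fun P hP => by
    by_contra! h
    have := ord_place_neg hr (transcendental_jBar _ N) transcendental_jFib
      (finrank_adjoin_jFib hq hqN hA) h
    rw [hP] at this
    omega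
  have h3 : (3 : ℤ) ∣ Q.ord (jFib (ResidueField A) N) := dvd_ord_red hr hj0 fun P hP => by
    rcases (hnopole P hP).lt_or_eq with h | h
    · rw [ord_jBar_eq_three N hν3 h]
    · rw [← h]; exact dvd_zero _
  have h2 : (2 : ℤ) ∣ Q.ord (jFib (ResidueField A) N) := by
    have hr' := hr.sub (GoodReductionDatum.redsTo_algebraMap (1728 : A))
    rw [show ((1728 : A) : AlgebraicClosure ℚ) = 1728 from map_ofNat A.subtype 1728, h1728,
      map_zero, sub_zero] at hr'
    refine dvd_ord_red hr' hj0 fun P hP => ?_
    have h0 := ord_nonneg_of_mem' P (sub_mem ((Curve.mem_iff_ord_nonneg P).mpr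
      (Or.inr (hnopole P hP))) (P.algebraMap_mem' (1728 : AlgebraicClosure ℚ)))
    rcases h0.lt_or_eq with h | h
    · exact (ord_jBar_sub_eq_two N hν2 h).symm ▸ dvd_rfl
    · exact h ▸ dvd_zero _
  omega

local notation "Qb" => AlgebraicClosure ℚ

section Coordinate

variable {q : ℕ} [hq : Fact q.Prime] [NeZero q] {A : ValuationSubring Qb} {N : ℕ} [NeZero N]
  (hA : A.LiesOverPrime q) (hqN : ¬ q ∣ N) (H : Hauptmodul q) (hN : H.L ∣ N) {R : ℤ[X]}
  (hR : IsCuspPoly H R) {S : (ResidueField A)[X]}
  (hS : R.map (Int.castRingHom (ResidueField A)) = S)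

include hA hR hS in
/-- The cusp values are the roots of the reduced cusp polynomial. -/
theorem inertiaRes_ne_of_eval_ne_zero {a : ResidueField A} (ha : S.eval a ≠ 0) :
    ∀ b ∈ cuspSet R (inertiaRing A), inertiaRes A b ≠ a := by
  rintro b hb rfl
  have h := (mem_cuspSet_iff H hR).mp hb
  refine ha ?_
  rw [← hS, eval_map, ← (inertiaRes A).map_zero, ← h, hom_eval₂]
  exact eval₂_congr (RingHom.ext_int _ _) rfl rfl

variable [IsAlgClosed (ResidueField A)]
  [IsFunctionField1 Qb (modularFunctionFieldBar N)]
  [IsFunctionField1 (ResidueField A) (modularFunctionFieldFullC (ResidueField A) N)]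

include hA hqN hN hR hS in
/-- The numerator of `j` in the coordinate, modulo `q`. -/
theorem aeval_uBar_numerator {P : ℤ[X]}
    (hP : aeval (uSeries H) P = ModularCurve.jqModC ℤ * aeval (uSeries H) R ^ H.L) :
    aeval (uBar H hN A hA hqN) (P.map (Int.castRingHom (ResidueField A))) =
      jFib (ResidueField A) N * aeval (uBar H hN A hA hqN) S ^ H.L ∧
    (P.map (Int.castRingHom (ResidueField A))).natDegree = H.L * S.natDegree + 1 := by
  set x := uBar H hN A hA hqN
  have hcoe : ∀ S : ℤ[X], ((aeval x (S.map (Int.castRingHom (ResidueField A))) :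
      modularFunctionFieldFullC (ResidueField A) N) : LaurentSeries (ResidueField A)) =
      coeffMap (Int.castRingHom (ResidueField A)) (aeval (uSeries H) S) := fun S => by
    show (modularFunctionFieldFullC (ResidueField A) N).val.toRingHom (aeval x _) = _
    rw [aeval_def, eval₂_map, aeval_def, hom_eval₂, hom_eval₂]
    exact eval₂_congr (RingHom.ext_int _ _) (coe_uBar H hN A hA hqN) rfl
  have hrel : aeval x (P.map (Int.castRingHom (ResidueField A))) =
      jFib (ResidueField A) N * aeval x S ^ H.L := by
    refine Subtype.ext ?_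
    rw [MulMemClass.coe_mul, SubmonoidClass.coe_pow, ← hS, hcoe, hcoe, hP, map_mul,
      map_pow, coe_jFib, ModularCurve.coeffMap_jqModC]
  refine ⟨hrel, ?_⟩
  have hux : (x : LaurentSeries (ResidueField A)).order = -1 := by
    rw [show (x : LaurentSeries (ResidueField A)) = _ from coe_uBar H hN A hA hqN]
    have hc : (coeffMap (Int.castRingHom (ResidueField A)) (uSeries H)).coeff (-1) = 1 := by
      simp [coeff_uSeries_top]
    refine le_antisymm (HahnSeries.order_le_of_coeff_ne_zero (by rw [hc]; exact one_ne_zero)) ?_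
    refine (HahnSeries.le_order_iff_forall (fun e => by
      rw [e, HahnSeries.coeff_zero] at hc; exact zero_ne_one hc)).mpr fun i hi => ?_
    exact (poleLE_uSeries H).coeffMap _ i (by simpa using hi)
  have hR0' : S ≠ 0 := hS ▸ (hR.monic.map _).ne_zero
  obtain ⟨hR0, hRo⟩ := order_aeval_simple_pole hux hR0'
  have h := congrArg (modularFunctionFieldFullC (ResidueField A) N).val hrel
  rw [map_mul, map_pow, ← aeval_algHom_apply, ← aeval_algHom_apply] at h
  change aeval (x : LaurentSeries (ResidueField A)) _ = ModularCurve.jqModC (ResidueField A) *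
    aeval (x : LaurentSeries (ResidueField A)) _ ^ H.L at h
  have hj := Mazur.Step3.order_jqModC (ResidueField A)
  have hj0 : ModularCurve.jqModC (ResidueField A) ≠ 0 := fun e => by
    rw [e, HahnSeries.order_zero] at hj; omega
  have hPne : P.map (Int.castRingHom (ResidueField A)) ≠ 0 := fun e => by
    rw [e, map_zero] at h
    exact mul_ne_zero hj0 (pow_ne_zero _ hR0) h.symm
  have hPo := (order_aeval_simple_pole hux hPne).2
  rw [h, HahnSeries.order_mul hj0 (pow_ne_zero _ hR0), HahnSeries.order_pow, hRo, hj] at hPo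
  rw [nsmul_eq_mul] at hPo
  zify
  linarith

variable {P : (ResidueField A)[X]} {e : ℕ}
  (hrel : aeval (uBar H hN A hA hqN) P =
    jFib (ResidueField A) N * aeval (uBar H hN A hA hqN) S ^ e)

include hA hqN hN hR hS hrel in
/-- Where `j` is finite the coordinate is finite and not a cusp value, and is simple. -/
theorem exists_value_of_coord (hdeg : e * S.natDegree < P.natDegree) (hR0 : R.coeff 0 = 0)
    (hH : H.IsCoord) (hne : ∀ τ, R.eval₂ (Int.castRingHom ℂ) (H.u τ) ≠ 0)
    {Q : Place (ResidueField A) (modularFunctionFieldFullC (ResidueField A) N)}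
    (hQ : 0 ≤ Q.ord (jFib (ResidueField A) N)) :
    ∃ a : ResidueField A, S.eval a ≠ 0 ∧
      Q.ord (uBar H hN A hA hqN - algebraMap (ResidueField A) _ a) = 1 := by
  set x := uBar H hN A hA hqN
  have hxT := transcendental_uBar H hN A hA hqN
  have hRne : S ≠ 0 := hS ▸ (hR.monic.map _).ne_zero
  have hPne : P ≠ 0 := fun e => by rw [e, natDegree_zero] at hdeg; omega
  have hjT : Transcendental (ResidueField A) (jFib (ResidueField A) N) := transcendental_jFib
  have hj0 : jFib (ResidueField A) N ≠ 0 := fun e => hjT (e ▸ isAlgebraic_zero)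
  have hfin : 0 ≤ Q.ord x := by
    by_contra! hlt
    have h1 := BadRed.Carayol.Instance.ord_aeval_of_neg hxT hlt hPne
    rw [hrel, Q.ord_mul hj0 (pow_ne_zero _ (aeval_ne_zero_of_transcendental hxT hRne)),
      Curve.ord_pow', BadRed.Carayol.Instance.ord_aeval_of_neg hxT hlt hRne] at h1
    have hlt' : ((e : ℤ) * S.natDegree) < P.natDegree := by exact_mod_cast hdeg
    nlinarith [mul_lt_mul_of_neg_right hlt' hlt]
  have hmem : x ∈ Q.toValuationSubring := (Curve.mem_iff_ord_nonneg Q).mpr (Or.inr hfin)
  set a := valueAt Q x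
  have hx0 : x - algebraMap (ResidueField A) (modularFunctionFieldFullC (ResidueField A) N) a ≠ 0 :=
    fun e => Curve.transcendental_sub_const hxT a (e ▸ isAlgebraic_zero)
  have hpos :
      0 < Q.ord (x - algebraMap (ResidueField A) (modularFunctionFieldFullC (ResidueField A) N) a) :=
    (valueAt_spec Q hmem).resolve_left fun e => hx0 (sub_eq_zero.mpr e)
  have hRa : S.eval a ≠ 0 := by
    intro h0
    have hRm := Curve.Diff.aeval_mem Q hmem S
    have hRpos : 0 < Q.ord (aeval x S) :=
      ((valueAt_eq_zero_iff Q hRm).mp (by rw [valueAt_aeval Q hmem]; exact h0)).resolve_left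
        (aeval_ne_zero_of_transcendental hxT hRne)
    have hred := redsTo_aeval (redsTo_uElt H hN A hA hqN) (R.map (Int.castRingHom A))
    rw [Polynomial.map_map, Polynomial.map_map, RingHom.ext_int (A.subtype.comp _)
      (Int.castRingHom Qb), RingHom.ext_int ((residue A).comp _) (Int.castRingHom (ResidueField A)),
      hS] at hred
    obtain ⟨P', hP'Q, hP'⟩ := (exists_place_eq hred
      (aeval_ne_zero_of_transcendental hxT hRne) Q).1 hRpos
    set u := uElt Qb H hN
    have hum : u ∈ P'.toValuationSubring := by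
      by_contra hu
      have hneg := ord_neg_of_notMem P' hu
      rw [BadRed.Carayol.Instance.ord_aeval_of_neg (transcendental_uElt H Qb hN) hneg
        (hR.monic.map _).ne_zero] at hP'
      nlinarith
    have hb : (R.map (Int.castRingHom Qb)).eval (valueAt P' u) = 0 := by
      rw [← valueAt_aeval P' hum]
      exact (valueAt_eq_zero_iff P' (Curve.Diff.aeval_mem P' hum _)).mpr (Or.inr hP')
    have hjneg := ord_jBar_neg_of_root (P := P') H hN (R := R) hne (b := valueAt P' u)
      (by rwa [← eval_map]) (
        (valueAt_spec P' hum).resolve_left fun e =>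
          Curve.transcendental_sub_const (transcendental_uElt H Qb hN) (valueAt P' u)
            (by rw [sub_eq_zero.mpr e]; exact isAlgebraic_zero))
    have := ord_place_neg (redsTo_jBar hq.out hqN hA) (transcendental_jBar Qb N) hjT
      (finrank_adjoin_jFib hq.out hqN hA) hjneg
    rw [hP'Q] at this
    omega
  refine ⟨a, hRa, le_antisymm ?_ (by omega)⟩
  haveI := Fact.mk (inertiaRes_surjective hq.out hA)
  exact ord_uBar_sub_le_one' hA hqN H hN hR hR0 hH
    (inertiaRes_ne_of_eval_ne_zero hA H hR hS hRa) Q

include hA hqN hN hR hS hrel in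
/-- At a value `a` of the coordinate, the order of `j - c` is a multiplicity. -/
theorem ord_jFib_sub_of_coord
    {Q : Place (ResidueField A) (modularFunctionFieldFullC (ResidueField A) N)}
    {a : ResidueField A} (ha : S.eval a ≠ 0)
    (hQ : Q.ord (uBar H hN A hA hqN - algebraMap (ResidueField A) _ a) = 1) (c : ResidueField A) :
    Q.ord (jFib (ResidueField A) N - algebraMap (ResidueField A) _ c) =
      (P - C c * S ^ e).rootMultiplicity a := by
  set x := uBar H hN A hA hqN
  have hxT := transcendental_uBar H hN A hA hqN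
  have hRne : S ≠ 0 :=
    fun h0 => ha (by rw [h0, eval_zero])
  have hR0 := aeval_ne_zero_of_transcendental hxT hRne
  have hjc : jFib (ResidueField A) N - algebraMap (ResidueField A) _ c ≠ 0 := fun e =>
    Curve.transcendental_sub_const transcendental_jFib c (e ▸ isAlgebraic_zero)
  set G := P - C c * S ^ e
  have hG : aeval x G = (jFib (ResidueField A) N - algebraMap (ResidueField A) _ c) *
      aeval x S ^ e := by
    simp only [G]
    rw [map_sub, map_mul, map_pow, aeval_C, hrel, sub_mul]
  have hGne : G ≠ 0 := fun e => by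
    rw [e, map_zero] at hG
    exact mul_ne_zero hjc (pow_ne_zero _ hR0) hG.symm
  have h := ord_aeval_eq_rootMultiplicity Q hQ hGne
  rw [hG, Q.ord_mul hjc (pow_ne_zero _ hR0), Curve.ord_pow',
    ord_aeval_eq_rootMultiplicity Q hQ hRne, rootMultiplicity_eq_zero (fun hr => ha hr)] at h
  simpa using h

end Coordinate

variable {A : ValuationSubring Qb} {N : ℕ} [NeZero N] (hA : A.LiesOverPrime 2) (h9 : 9 ∣ N)
  (hN2 : ¬ 2 ∣ N)

/-- The coordinate of level nine at two. -/
abbrev H9 : Hauptmodul 2 := hauptmodul9 2 rfl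

/-- Its cusp polynomial. -/
abbrev R9 : ℤ[X] := X ^ 3 + (C 9 * X ^ 2 + C 27 * X)

include hA in
theorem charP_two : CharP (ResidueField A) 2 := Igusa.Down.charP_residueField Nat.prime_two hA

include hA in
theorem map_R9 : R9.map (Int.castRingHom (ResidueField A)) = X ^ 3 + X ^ 2 + X := by
  haveI := charP_two hA
  have h20 : (2 : (ResidueField A)[X]) = 0 := by
    rw [← Polynomial.C_ofNat, show (OfNat.ofNat 2 : ResidueField A) = 0 from
      CharTwo.two_eq_zero, C_0]
  simp
  linear_combination (4 * X ^ 2 + 13 * X) * h20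

variable [IsAlgClosed (ResidueField A)]
  [IsFunctionField1 Qb (modularFunctionFieldBar N)]
  [IsFunctionField1 (ResidueField A) (modularFunctionFieldFullC (ResidueField A) N)]

/-- The numerator of `j` in the coordinate. -/
def jPoly9 : ℤ[X] := (exists_j_eq_eval H9 (hauptmodul9_isCuspPoly rfl)).choose

variable (A) in
/-- The numerator modulo `2`. -/
def jPolyTwo : (ResidueField A)[X] := jPoly9.map (Int.castRingHom (ResidueField A))

include h9 hA hN2 in
theorem aeval_uBar_jPolyTwo :
    aeval (uBar H9 h9 A hA hN2) (jPolyTwo A) =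
      jFib (ResidueField A) N *
        aeval (uBar H9 h9 A hA hN2) (X ^ 3 + X ^ 2 + X : (ResidueField A)[X]) ^ 9 ∧
    (jPolyTwo A).natDegree = 28 := by
  have hS := map_R9 hA
  obtain ⟨h1, h2⟩ := aeval_uBar_numerator hA hN2 H9 h9 (hauptmodul9_isCuspPoly rfl) hS
    (exists_j_eq_eval H9 (hauptmodul9_isCuspPoly rfl)).choose_spec
  refine ⟨h1, h2.trans ?_⟩
  rw [show (X ^ 3 + X ^ 2 + X : (ResidueField A)[X]).natDegree = 3 by compute_degree!]
  rfl

include h9 hA hN2 in
/-- Where `j` is finite the coordinate is finite and not a cusp value, and is simple. -/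
theorem exists_value_uBar {Q : Place (ResidueField A) (modularFunctionFieldFullC (ResidueField A) N)}
    (hQ : 0 ≤ Q.ord (jFib (ResidueField A) N)) :
    ∃ a : ResidueField A, (X ^ 3 + X ^ 2 + X : (ResidueField A)[X]).eval a ≠ 0 ∧
      Q.ord (uBar H9 h9 A hA hN2 - algebraMap (ResidueField A) _ a) = 1 := by
  obtain ⟨hrel, hdeg⟩ := aeval_uBar_jPolyTwo hA h9 hN2
  refine exists_value_of_coord hA hN2 H9 h9 (hauptmodul9_isCuspPoly rfl) (map_R9 hA) hrel ?_
    (by simp) (hauptmodul9_isCoord 2 rfl) (fun τ h => u9_not_root h τ rfl) hQ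
  rw [hdeg, show (X ^ 3 + X ^ 2 + X : (ResidueField A)[X]).natDegree = 3 by compute_degree!]
  norm_num

include h9 hA hN2 in
/-- Over zero the orders are divisible by `6`. -/
theorem six_dvd_ord_jFib {Q : Place (ResidueField A) (modularFunctionFieldFullC (ResidueField A) N)}
    (hQ : 0 < Q.ord (jFib (ResidueField A) N)) : (6 : ℤ) ∣ Q.ord (jFib (ResidueField A) N) := by
  haveI := charP_two hA
  refine six_dvd_ord_jFib_of_elliptic Nat.prime_two hN2 hA (nuTwo_eq_zero (Or.inr h9))
    (nuThree_eq_zero (Or.inr h9)) ?_ hQ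
  rw [show (1728 : A) = ((2 * 864 : ℕ) : A) by norm_num, map_natCast, Nat.cast_mul,
    Nat.cast_ofNat, CharTwo.two_eq_zero, zero_mul]

include h9 hA hN2 in
/-- At a value `a` of the coordinate, the order of `j - c` is a multiplicity. -/
theorem ord_jFib_sub_eq {Q : Place (ResidueField A) (modularFunctionFieldFullC (ResidueField A) N)}
    {a : ResidueField A} (ha : (X ^ 3 + X ^ 2 + X : (ResidueField A)[X]).eval a ≠ 0)
    (hQ : Q.ord (uBar H9 h9 A hA hN2 - algebraMap (ResidueField A) _ a) = 1) (c : ResidueField A) :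
    Q.ord (jFib (ResidueField A) N - algebraMap (ResidueField A) _ c) =
      (jPolyTwo A + C c * (X ^ 3 + X ^ 2 + X) ^ 9).rootMultiplicity a := by
  haveI := charP_two hA
  obtain ⟨hrel, -⟩ := aeval_uBar_jPolyTwo hA h9 hN2
  rw [← CharTwo.sub_eq_add]
  exact ord_jFib_sub_of_coord hA hN2 H9 h9 (hauptmodul9_isCuspPoly rfl) (map_R9 hA) hrel ha hQ c

end FermatAgent.MazurPrinciple.AwayThree
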