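import Fermat.Agent.MazurPrinciple.AwayThree.LevelNine

/-!
# The orders of `j - c` on the fibre at two

The facts about the numerator of `j` are read off at level nine, where `j` has degree `12`.
-/

set_option autoImplicit false
set_option linter.style.haveILetI false
set_option maxHeartbeats 1000000

noncomputable section

open Polynomial AlgebraicCurve IntermediateField IsLocalRing
open FermatAgent.Curve FermatAgent.JacCharts FermatAgent.ModFun FermatAgent.BadRed.Semistable
open FermatAgent.BadRed.Carayol.Instance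
open ModularCurve (modularFunctionFieldFullC modularFunctionFieldBar)

namespace FermatAgent.MazurPrinciple.AwayThree

local notation "Qb" => AlgebraicClosure ℚ

variable {A : ValuationSubring Qb} (hA : A.LiesOverPrime 2) [IsAlgClosed (ResidueField A)]

variable {N : ℕ} [NeZero N] (h9 : 9 ∣ N) (hN2 : ¬ 2 ∣ N)
  [IsFunctionField1 Qb (modularFunctionFieldBar N)]
  [IsFunctionField1 (ResidueField A) (modularFunctionFieldFullC (ResidueField A) N)]

include hA h9 hN2 in
/-- A root of the numerator off the cusps gives a place over `j = 0`. -/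
theorem exists_place_of_root {r : ResidueField A}
    (hr : (jPolyTwo A).eval r = 0) (hRr : (X ^ 3 + X ^ 2 + X : (ResidueField A)[X]).eval r ≠ 0) :
    ∃ Q : Place (ResidueField A) (modularFunctionFieldFullC (ResidueField A) N),
      Q.ord (uBar H9 h9 A hA hN2 - algebraMap (ResidueField A) _ r) = 1 ∧
        Q.ord (jFib (ResidueField A) N) = (jPolyTwo A).rootMultiplicity r ∧
          0 < Q.ord (jFib (ResidueField A) N) := by
  haveI := Fact.mk (inertiaRes_surjective Nat.prime_two hA)
  obtain ⟨-, hdeg⟩ := aeval_uBar_jPolyTwo hA h9 hN2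
  obtain ⟨Q, hQ⟩ := exists_ord_pos_of_transcendental
    (Curve.transcendental_sub_const (transcendental_uBar H9 h9 A hA hN2) r)
  have h1 := ord_uBar_sub_le_one' hA hN2 H9 h9
    (hauptmodul9_isCuspPoly rfl) (by simp) (hauptmodul9_isCoord 2 rfl)
    (inertiaRes_ne_of_eval_ne_zero hA H9 (hauptmodul9_isCuspPoly rfl) (map_R9 hA) hRr) Q
  have h1' : Q.ord (uBar H9 h9 A hA hN2 - algebraMap (ResidueField A) _ r) = 1 :=
    le_antisymm h1 (by omega)
  have he := ord_jFib_sub_eq hA h9 hN2 hRr h1' 0
  rw [map_zero, map_zero, sub_zero, zero_mul, add_zero] at he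
  refine ⟨Q, h1', he, ?_⟩
  rw [he]
  exact_mod_cast (rootMultiplicity_pos (p := jPolyTwo A) fun e => by
    rw [e, natDegree_zero] at hdeg; omega).mpr hr

omit [IsFunctionField1 Qb (modularFunctionFieldBar N)] in
theorem dedekindPsi_nine : ModularCurve.dedekindPsi 9 = 12 := by
  have h9 : ¬ Squarefree (9 : ℕ) := fun h => absurd (h 3 (by norm_num)) (by simp)
  rw [ModularCurve.dedekindPsi, show (9 : ℕ).divisors = {1, 3, 9} by decide]
  simp [Finset.filter_insert, Finset.filter_singleton, h9, Nat.prime_three.squarefree]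

include hA in
/-- Some root lies off the cusps; all are `1`, of multiplicity divisible by `6`, at most `12`. -/
theorem jPolyTwo_facts :
    (∀ r, (jPolyTwo A).eval r = 0 → (X ^ 3 + X ^ 2 + X : (ResidueField A)[X]).eval r ≠ 0 → r = 1) ∧
      (jPolyTwo A).eval 1 = 0 ∧ 6 ∣ (jPolyTwo A).rootMultiplicity 1 ∧
        (jPolyTwo A).rootMultiplicity 1 ≤ 12 ∧ (jPolyTwo A).natDegree = 28 := by
  classical
  haveI := Igusa.Down.isFunctionField1_bar 9
  haveI := Igusa.Down.isFunctionField1_fibre' 9 Nat.prime_two (by norm_num) hA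
  haveI := charP_two hA
  have h9' : 9 ∣ 9 := dvd_rfl
  have h2' : ¬ 2 ∣ 9 := by norm_num
  let good : (ResidueField A) → Prop := fun r =>
    (jPolyTwo A).eval r = 0 ∧ (X ^ 3 + X ^ 2 + X : (ResidueField A)[X]).eval r ≠ 0
  have hplace : ∀ r, good r → ∃ Q : Place (ResidueField A) (modularFunctionFieldFullC (ResidueField A) 9),
      Q.ord (uBar H9 h9' A hA h2' - algebraMap (ResidueField A) _ r) = 1 ∧
        Q.ord (jFib (ResidueField A) 9) = (jPolyTwo A).rootMultiplicity r ∧ 0 < Q.ord (jFib (ResidueField A) 9) :=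
    fun r hr => exists_place_of_root hA h9' h2' hr.1 hr.2
  have hdeg : Module.finrank (ResidueField A)⟮jFib (ResidueField A) 9⟯ (modularFunctionFieldFullC (ResidueField A) 9) = 12 := by
    rw [finrank_adjoin_jFib Nat.prime_two (by norm_num) hA, finrank_adjoin_jBar,
      ModCurveGroup.index_gamma0]
    exact dedekindPsi_nine
  have hbound : ∀ s : Finset (ResidueField A), (∀ r ∈ s, good r) →
      ∑ r ∈ s, (jPolyTwo A).rootMultiplicity r ≤ 12 := fun s hs => by
    choose f hf1 hf2 hf3 using hplace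
    let g : s → Place (ResidueField A) (modularFunctionFieldFullC (ResidueField A) 9) := fun r => f r (hs r r.2)
    have hginj : Function.Injective g := fun r r' hrr => by
      have e1 := valueAt_eq_of (g r) (a := (r : (ResidueField A)))
        (Or.inr (by rw [hf1 r (hs r r.2)]; norm_num))
      have e2 := valueAt_eq_of (g r') (a := (r' : (ResidueField A)))
        (Or.inr (by rw [hf1 r' (hs r' r'.2)]; norm_num))
      exact Subtype.ext (e1.symm.trans (hrr ▸ e2))
    refine le_of_le_of_eq ?_ hdeg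
    refine le_of_eq_of_le ?_ (sum_toNat_ord_le_finrank (transcendental_jFib (k := ResidueField A) (N' := 9))
      (Finset.univ.image g) fun Q hQ => ?_)
    · rw [Finset.sum_image fun a _ b _ h => hginj h, ← Finset.sum_coe_sort s]
      exact Finset.sum_congr rfl fun r _ => by rw [hf2]; rfl
    · obtain ⟨r, -, rfl⟩ := Finset.mem_image.mp hQ
      exact hf3 _ _
  have hsix : ∀ r, good r →
      6 ∣ (jPolyTwo A).rootMultiplicity r ∧ 0 < (jPolyTwo A).rootMultiplicity r := fun r hr => by
    obtain ⟨Q, -, hQ2, hQ3⟩ := hplace r hr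
    have h6 := six_dvd_ord_jFib (N := 9) hA h9' h2' hQ3
    rw [hQ2] at h6 hQ3
    exact ⟨by exact_mod_cast h6, by exact_mod_cast hQ3⟩
  have hfrob : ∀ r, good r → good (r ^ 2) := fun r hr => by
    have e : (X ^ 3 + X ^ 2 + X : (ResidueField A)[X]) = R9.map (Int.castRingHom (ResidueField A)) := (map_R9 hA).symm
    refine ⟨?_, ?_⟩
    · show (jPoly9.map _).eval _ = 0
      rw [eval_map_pow_char 2]
      exact (sq_eq_zero_iff).mpr hr.1
    · rw [e, eval_map_pow_char 2, ← e]
      exact pow_ne_zero _ hr.2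
  have hone : ∀ r, good r → r = 1 := fun r hr => by
    by_contra hr1
    have hr0 : r ≠ 0 := fun h => hr.2 (by simp [h])
    have hRr : r * (r ^ 2 + r + 1) ≠ 0 := by rw [← eval_rTwo]; exact hr.2
    have h12 : r ≠ r ^ 2 := fun h => hr1 (mul_left_cancel₀ hr0 (by rw [mul_one, ← pow_two]; exact h.symm))
    have h14 : r ≠ (r ^ 2) ^ 2 := fun h => by
      have : (r - 1) * (r ^ 2 + r + 1) = 0 := mul_left_cancel₀ hr0
        (by linear_combination -h)
      rcases mul_eq_zero.mp this with h' | h'
      · exact hr1 (sub_eq_zero.mp h')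
      · exact hRr (by rw [h', mul_zero])
    have h24 : r ^ 2 ≠ (r ^ 2) ^ 2 := fun h => hr1 (by
      have : r ^ 2 = 1 := mul_left_cancel₀ (pow_ne_zero 2 hr0) (by linear_combination -h)
      have h' : (r - 1) ^ 2 = 0 := by
        linear_combination this - (r - 1) * CharTwo.two_eq_zero (R := (ResidueField A))
      exact sub_eq_zero.mp (pow_eq_zero_iff two_ne_zero |>.mp h'))
    have hb := hbound {r, r ^ 2, (r ^ 2) ^ 2} (by
      simp only [Finset.mem_insert, Finset.mem_singleton, forall_eq_or_imp, forall_eq]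
      exact ⟨hr, hfrob r hr, hfrob _ (hfrob r hr)⟩)
    rw [Finset.sum_insert (by simp [h12, h14]), Finset.sum_insert (by simp [h24]),
      Finset.sum_singleton] at hb
    obtain ⟨a1, b1⟩ := hsix r hr
    obtain ⟨a2, b2⟩ := hsix _ (hfrob r hr)
    obtain ⟨a3, b3⟩ := hsix _ (hfrob _ (hfrob r hr))
    omega
  obtain ⟨Q, hQ⟩ := exists_ord_pos_of_transcendental (transcendental_jFib (k := ResidueField A) (N' := 9))
  obtain ⟨a, ha, ha1⟩ := exists_value_uBar (N := 9) hA h9' h2' hQ.le
  have he := ord_jFib_sub_eq (N := 9) hA h9' h2' ha ha1 0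
  rw [map_zero, map_zero, sub_zero, zero_mul, add_zero] at he
  obtain ⟨-, hdeg28⟩ := aeval_uBar_jPolyTwo (N := 9) hA h9' h2'
  have hne : jPolyTwo A ≠ 0 := fun e => by rw [e, natDegree_zero] at hdeg28; omega
  have hga : good a := ⟨(rootMultiplicity_pos hne).mp (by omega), ha⟩
  have h1 : good 1 := hone a hga ▸ hga
  refine ⟨fun r h h' => hone r ⟨h, h'⟩, h1.1, (hsix 1 h1).1, ?_, hdeg28⟩
  simpa using hbound {1} (by simp [h1])

include hA h9 hN2 in
/-- Over zero the order is not a multiple of nine. -/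
theorem not_nine_dvd_ord_jFib
    {Q : Place (ResidueField A) (modularFunctionFieldFullC (ResidueField A) N)}
    (hQ : 0 < Q.ord (jFib (ResidueField A) N)) : ¬ (9 : ℤ) ∣ Q.ord (jFib (ResidueField A) N) := by
  obtain ⟨hroots, -, h6, h12, hdeg⟩ := jPolyTwo_facts hA
  obtain ⟨a, ha, ha1⟩ := exists_value_uBar hA h9 hN2 hQ.le
  have he := ord_jFib_sub_eq hA h9 hN2 ha ha1 0
  rw [map_zero, map_zero, sub_zero, zero_mul, add_zero] at he
  have hne : jPolyTwo A ≠ 0 := fun e => by rw [e, natDegree_zero] at hdeg; omega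
  obtain rfl := hroots a ((rootMultiplicity_pos hne).mp (by omega)) ha
  rw [he]
  omega

include hA h9 hN2 in
/-- A nonzero value is taken simply. -/
theorem ord_jFib_sub_le_one {c : ResidueField A} (hc : c ≠ 0)
    (Q : Place (ResidueField A) (modularFunctionFieldFullC (ResidueField A) N)) :
    Q.ord (jFib (ResidueField A) N - algebraMap (ResidueField A) _ c) ≤ 1 := by
  haveI := charP_two hA
  by_contra! hgt
  obtain ⟨hroots, h1, h6, -, hdeg⟩ := jPolyTwo_facts hA
  have hfin : 0 ≤ Q.ord (jFib (ResidueField A) N) := by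
    have h := add_mem ((Curve.mem_iff_ord_nonneg Q).mpr (Or.inr (by omega : (0 : ℤ) ≤
      Q.ord (jFib (ResidueField A) N - algebraMap (ResidueField A) _ c))))
      (Q.algebraMap_mem' c)
    rw [sub_add_cancel] at h
    exact ord_nonneg_of_mem' Q h
  obtain ⟨a, ha, ha1⟩ := exists_value_uBar hA h9 hN2 hfin
  rw [ord_jFib_sub_eq hA h9 hN2 ha ha1 c] at hgt
  have := rootMultiplicity_le_one hdeg hroots (Nat.dvd_trans (by norm_num) h6) h1 hc ha
  omega

end FermatAgent.MazurPrinciple.AwayThree
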